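import Fermat.Agent.NaturalChebotarev.Nonvanishing
import Fermat.Agent.PrimeIdealTheorem.Counting

/-!
# The mean of a character over the primes

The mean of a function `b` on the primes of `K` is the limit of `log x / x` times its sum over the
primes of norm at most `x`.  Changing `b` at finitely many primes or at those of nonprime norm does
not change it.  For `0 ≤ w ≤ B` on the powers of primes, the limits of `ψ` for `w` and `B - w` give
the mean by squeezing, and Newman's theorem gives those of `1 + re (z f(v)^k)`; so a nontrivial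
character has mean `0`, a trivial one `1`.
-/

set_option autoImplicit false
set_option linter.unusedSectionVars false

noncomputable section

open NumberField IsDedekindDomain Module Filter Topology Ideal FA.Ext FA.PrimeIdeal
open scoped nonZeroDivisors Classical
open scoped ArithmeticFunction.vonMangoldt

namespace FA.Hecke

variable {K : Type*} [Field K] [NumberField K]

variable (K) in
/-- The primes of norm at most `n`. -/
def primesLE (n : ℕ) : Finset (HeightOneSpectrum (𝓞 K)) := (finite_primes_le n).toFinset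

theorem mem_primesLE {n : ℕ} {v : HeightOneSpectrum (𝓞 K)} :
    v ∈ primesLE K n ↔ absNorm v.asIdeal ≤ n := by simp [primesLE]

section mean

variable {E : Type*} [NormedAddCommGroup E] [NormedSpace ℝ E]

/-- The sum over the primes of norm at most `x`. -/
def wSum (b : HeightOneSpectrum (𝓞 K) → E) (x : ℝ) : E := ∑ v ∈ primesLE K ⌊x⌋₊, b v

/-- **`b` has mean `c` over the primes, for natural density.** -/
def HasMean (b : HeightOneSpectrum (𝓞 K) → E) (c : E) : Prop :=
  Tendsto (fun x : ℝ => (Real.log x / x) • wSum b x) atTop (𝓝 c)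

theorem HasMean.add {b b' : HeightOneSpectrum (𝓞 K) → E} {c c' : E} (h : HasMean b c)
    (h' : HasMean b' c') : HasMean (fun v => b v + b' v) (c + c') := by
  refine (Filter.Tendsto.add h h').congr fun x => ?_
  rw [← smul_add, wSum, wSum, wSum, Finset.sum_add_distrib]

theorem HasMean.sub {b b' : HeightOneSpectrum (𝓞 K) → E} {c c' : E} (h : HasMean b c)
    (h' : HasMean b' c') : HasMean (fun v => b v - b' v) (c - c') := by
  refine (Filter.Tendsto.sub h h').congr fun x => ?_
  rw [← smul_sub, wSum, wSum, wSum, Finset.sum_sub_distrib]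

theorem HasMean.map {F : Type*} [NormedAddCommGroup F] [NormedSpace ℝ F] (L : E →L[ℝ] F)
    {b : HeightOneSpectrum (𝓞 K) → E} {c : E} (h : HasMean b c) :
    HasMean (fun v => L (b v)) (L c) := by
  refine ((L.continuous.tendsto c).comp h).congr fun x => ?_
  simp [wSum, map_smul]

theorem HasMean.finset_sum {ι : Type*} (S : Finset ι) {b : ι → HeightOneSpectrum (𝓞 K) → E}
    {c : ι → E} (h : ∀ i ∈ S, HasMean (b i) (c i)) :
    HasMean (fun v => ∑ i ∈ S, b i v) (∑ i ∈ S, c i) := by
  refine (tendsto_finsetSum S h).congr fun x => ?_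
  rw [← Finset.smul_sum, wSum, Finset.sum_comm]
  rfl

end mean

/-- `∑ w(v, k) log N(v)` over the powers of norm `n`. -/
def fiberSum (w : HeightOneSpectrum (𝓞 K) × ℕ → ℝ) (n : ℕ) : ℝ :=
  ∑' p : PowFiber K n, w p.1 * Real.log (absNorm p.1.1.asIdeal)

theorem summable_fiberSum {w : HeightOneSpectrum (𝓞 K) × ℕ → ℝ} {B : ℝ} (h0 : ∀ p, 0 ≤ w p)
    (hB : ∀ p, w p ≤ B) (n : ℕ) :
    Summable fun p : PowFiber K n => w p.1 * Real.log (absNorm p.1.1.asIdeal) :=
  Summable.of_nonneg_of_le (fun _ => mul_nonneg (h0 _) (Real.log_natCast_nonneg _))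
    (fun _ => mul_le_mul_of_nonneg_right (hB _) (Real.log_natCast_nonneg _))
    ((summable_log_powFiber n).mul_left B)

theorem fiberSum_le {w : HeightOneSpectrum (𝓞 K) × ℕ → ℝ} {B : ℝ} (h0 : ∀ p, 0 ≤ w p)
    (hB : ∀ p, w p ≤ B) (n : ℕ) : fiberSum w n ≤ B * (finrank ℚ K * Λ n) := by
  refine (summable_fiberSum h0 hB n).tsum_le_of_sum_le fun T => ?_
  obtain ⟨I, hI⟩ := Ideal.exists_maximal (𝓞 K)
  have hB0 : 0 ≤ B := (h0 (⟨I, hI.isPrime, Ring.ne_bot_of_isMaximal_of_not_isField hI
    (RingOfIntegers.not_isField K)⟩, 0)).trans (hB _)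
  refine (Finset.sum_le_sum fun p _ =>
    mul_le_mul_of_nonneg_right (hB p.1) (Real.log_natCast_nonneg _)).trans ?_
  rw [← Finset.mul_sum]
  exact mul_le_mul_of_nonneg_left (sum_log_le T) hB0

theorem sum_le_fiberSum {w : HeightOneSpectrum (𝓞 K) × ℕ → ℝ} {B : ℝ} (h0 : ∀ p, 0 ≤ w p)
    (hB : ∀ p, w p ≤ B) {n : ℕ} (S : Finset (HeightOneSpectrum (𝓞 K)))
    (hS : ∀ v ∈ S, absNorm v.asIdeal = n) :
    ∑ v ∈ S, w (v, 0) * Real.log (absNorm v.asIdeal) ≤ fiberSum w n := by
  let e : S ↪ PowFiber K n :=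
    ⟨fun v => ⟨(v.1, 0), by simpa using hS v.1 v.2⟩, fun v u h =>
      Subtype.ext (congrArg Prod.fst (congrArg Subtype.val h))⟩
  rw [← Finset.sum_coe_sort]
  refine le_of_eq_of_le ?_ ((summable_fiberSum h0 hB n).sum_le_tsum (Finset.univ.map e)
    fun p _ => mul_nonneg (h0 _) (Real.log_natCast_nonneg _))
  rw [Finset.sum_map]
  rfl

theorem wSum_fiberwise (g : HeightOneSpectrum (𝓞 K) → ℝ) (x : ℝ) :
    wSum g x = ∑ n ∈ Finset.Icc 1 ⌊x⌋₊,
      ∑ v ∈ (primesLE K ⌊x⌋₊).filter (fun v => absNorm v.asIdeal = n), g v := by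
  refine (Finset.sum_fiberwise_of_maps_to (fun v hv => Finset.mem_Icc.mpr ⟨?_, ?_⟩) _).symm
  · linarith [two_le_absNorm v]
  · exact mem_primesLE.mp hv

theorem theta_le_summatory {w : HeightOneSpectrum (𝓞 K) × ℕ → ℝ} {B : ℝ} (h0 : ∀ p, 0 ≤ w p)
    (hB : ∀ p, w p ≤ B) (x : ℝ) :
    wSum (fun v => w (v, 0) * Real.log (absNorm v.asIdeal)) x ≤ summatory (fiberSum w) x := by
  rw [wSum_fiberwise, summatory]
  exact Finset.sum_le_sum fun n _ =>
    sum_le_fiberSum h0 hB _ fun v hv => (Finset.mem_filter.mp hv).2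

variable (K) in
theorem sum_classes (g : HeightOneSpectrum (𝓞 K) → ℝ) (n : ℕ) :
    ∑ C : ClassGroup (𝓞 K), ∑ v ∈ primesUpTo C n, g v = ∑ v ∈ primesLE K n, g v := by
  rw [← Finset.sum_fiberwise (primesLE K n) primeClass g]
  exact Finset.sum_congr rfl fun C _ => Finset.sum_congr (Finset.ext fun v => by
    simp [mem_primesUpTo, mem_primesLE]) fun _ _ => rfl

theorem sum_inv_classNumber :
    ∑ _C : ClassGroup (𝓞 K), (classNumber K : ℝ)⁻¹ = 1 := by
  rw [Finset.sum_const, Finset.card_univ, nsmul_eq_mul, classNumber,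
    mul_inv_cancel₀ (Nat.cast_ne_zero.mpr Fintype.card_ne_zero)]

variable (K) in
theorem tendsto_theta : Tendsto
    (fun x => wSum (fun v : HeightOneSpectrum (𝓞 K) => Real.log (absNorm v.asIdeal)) x / x)
    atTop (𝓝 1) := by
  have h := tendsto_finsetSum (Finset.univ : Finset (ClassGroup (𝓞 K)))
    fun C _ => tendsto_thetaC C
  rw [sum_inv_classNumber] at h
  refine h.congr fun x => ?_
  rw [← Finset.sum_div, wSum, ← sum_classes]
  rfl

variable (K) in
/-- **The prime ideal theorem.** -/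
theorem hasMean_one : HasMean (fun _ : HeightOneSpectrum (𝓞 K) => (1 : ℝ)) 1 := by
  have h := tendsto_finsetSum (Finset.univ : Finset (ClassGroup (𝓞 K)))
    fun C _ => tendsto_piC C
  rw [sum_inv_classNumber] at h
  refine h.congr fun x => ?_
  rw [← Finset.sum_div, ← Finset.sum_mul, smul_eq_mul, wSum, ← sum_classes,
    show ∑ C : ClassGroup (𝓞 K), piC C x = ∑ C : ClassGroup (𝓞 K),
      ∑ _v ∈ primesUpTo C ⌊x⌋₊, (1 : ℝ) from Finset.sum_congr rfl fun C _ => by simp [piC]]
  ring

/-- **From the powers of primes to the primes.** -/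
theorem hasMean_of_psi {w : HeightOneSpectrum (𝓞 K) × ℕ → ℝ} {B c : ℝ} (h0 : ∀ p, 0 ≤ w p)
    (hB : ∀ p, w p ≤ B) (h : Tendsto (fun x => summatory (fiberSum w) x / x) atTop (𝓝 c))
    (h' : Tendsto (fun x => summatory (fiberSum fun p => B - w p) x / x) atTop (𝓝 (B - c))) :
    HasMean (fun v => w (v, 0)) c := by
  have h0' : ∀ p, 0 ≤ B - w p := fun p => sub_nonneg.mpr (hB p)
  have hB' : ∀ p, B - w p ≤ B := fun p => sub_le_self B (h0 p)
  set θ : ℝ → ℝ := fun x => wSum (fun v => w (v, 0) * Real.log (absNorm v.asIdeal)) x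
  set θ' : ℝ → ℝ := fun x => wSum (fun v => (B - w (v, 0)) * Real.log (absNorm v.asIdeal)) x
  have hadd : ∀ x, θ x + θ' x =
      B * wSum (fun v : HeightOneSpectrum (𝓞 K) => Real.log (absNorm v.asIdeal)) x := fun x => by
    simp only [θ, θ', wSum, ← Finset.sum_add_distrib, Finset.mul_sum]
    exact Finset.sum_congr rfl fun v _ => by ring
  have hlow := ((tendsto_theta K).const_mul B).sub h'
  rw [mul_one, sub_sub_cancel] at hlow
  have hθ : Tendsto (fun x => θ x / x) atTop (𝓝 c) := by
    refine tendsto_of_tendsto_of_tendsto_of_le_of_le' hlow h ?_ ?_ <;>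
      filter_upwards [eventually_gt_atTop 0] with x hx
    · rw [← mul_div_assoc, ← sub_div]
      refine div_le_div_of_nonneg_right ?_ hx.le
      linarith [hadd x, theta_le_summatory h0' hB' x]
    · exact div_le_div_of_nonneg_right (theta_le_summatory h0 hB x) hx.le
  have hθ' : Tendsto (fun x => θ' x / x) atTop (𝓝 (B - c)) := by
    have := ((tendsto_theta K).const_mul B).sub hθ
    rw [mul_one] at this
    refine this.congr fun x => ?_
    rw [← mul_div_assoc, ← sub_div, ← hadd x, add_sub_cancel_left]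
  have hπ : ∀ (g : HeightOneSpectrum (𝓞 K) → ℝ), (∀ v, 0 ≤ g v) → ∀ x : ℝ, 1 ≤ x →
      wSum (fun v => g v * Real.log (absNorm v.asIdeal)) x / x ≤
        (Real.log x / x) • wSum g x := fun g hg x hx => by
    rw [smul_eq_mul, div_mul_eq_mul_div, wSum, wSum, Finset.mul_sum]
    refine div_le_div_of_nonneg_right (Finset.sum_le_sum fun v hv => ?_) (by linarith)
    rw [mul_comm]
    refine mul_le_mul_of_nonneg_right ?_ (hg v)
    exact Real.log_le_log (Nat.cast_pos.mpr (zero_lt_two.trans_le (two_le_absNorm v)))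
      ((Nat.cast_le.mpr (mem_primesLE.mp hv)).trans (Nat.floor_le (by linarith)))
  have hhigh := ((hasMean_one K).const_mul B).sub hθ'
  rw [mul_one, sub_sub_cancel] at hhigh
  refine tendsto_of_tendsto_of_tendsto_of_le_of_le' hθ hhigh ?_ ?_ <;>
    filter_upwards [eventually_ge_atTop 1] with x hx
  · exact hπ _ (fun v => h0 _) x hx
  · have h1 := hπ (fun v => B - w (v, 0)) (fun v => h0' _) x hx
    have h2 : (Real.log x / x) • wSum (fun v => B - w (v, 0)) x +
        (Real.log x / x) • wSum (fun v => w (v, 0)) x =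
        B * ((Real.log x / x) • wSum (fun _ : HeightOneSpectrum (𝓞 K) => (1 : ℝ)) x) := by
      simp only [wSum, smul_eq_mul, ← mul_add, ← Finset.sum_add_distrib, sub_add_cancel,
        Finset.sum_const, nsmul_eq_mul]
      ring
    linarith [show θ' x / x ≤ (Real.log x / x) • wSum (fun v => B - w (v, 0)) x from h1]

/-- **The primes of nonprime norm, and finitely many others, do not count.** -/
theorem hasMean_congr {E : Type*} [NormedAddCommGroup E] [NormedSpace ℝ E]
    {b b' : HeightOneSpectrum (𝓞 K) → E} {c : E} (S : Set (HeightOneSpectrum (𝓞 K)))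
    (hS : S.Finite) {B : ℝ} (hB : ∀ v, ‖b' v - b v‖ ≤ B)
    (heq : ∀ v, v ∉ S → (absNorm v.asIdeal).Prime → b' v = b v) (h : HasMean b c) :
    HasMean b' c := by
  set N : ℝ := (hS.toFinset.card : ℝ)
  obtain ⟨D, hD⟩ := Chebyshev.psi_sub_theta_le_mul_sqrt
  set A : ℝ := finrank ℚ K * D / Real.log 2
  have hlim : Tendsto (fun x : ℝ => |B| * (N * (Real.log x / x) + A * (Real.log x / Real.sqrt x)))
      atTop (𝓝 0) := by
    have h1 : Tendsto (fun x : ℝ => Real.log x / x) atTop (𝓝 0) :=
      Real.isLittleO_log_id_atTop.tendsto_div_nhds_zero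
    have h2 : Tendsto (fun x : ℝ => Real.log x / Real.sqrt x) atTop (𝓝 0) := by
      refine ((isLittleO_log_rpow_atTop (r := 1 / 2) (by norm_num)).tendsto_div_nhds_zero).congr
        fun x => ?_
      rw [Real.sqrt_eq_rpow]
    simpa using ((h1.const_mul N).add (h2.const_mul A)).const_mul |B|
  have hzero : Tendsto (fun x : ℝ => (Real.log x / x) • wSum (fun v => b' v - b v) x) atTop
      (𝓝 0) := by
    refine squeeze_zero_norm' ?_ hlim
    filter_upwards [eventually_ge_atTop 1] with x hx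
    have hx0 : 0 < x := by linarith
    have hl : 0 ≤ Real.log x / x := div_nonneg (Real.log_nonneg hx) hx0.le
    rw [norm_smul, Real.norm_of_nonneg hl]
    set P := primesLE K ⌊x⌋₊
    set T := P.filter fun v => ¬(absNorm v.asIdeal).Prime
    have hT : (T.card : ℝ) * Real.log 2 ≤ finrank ℚ K * (D * Real.sqrt x) := by
      refine le_trans ?_ (mul_le_mul_of_nonneg_left (hD x) (Nat.cast_nonneg _))
      rw [← nsmul_eq_mul]
      refine (Finset.card_nsmul_le_sum T (fun v => Real.log (absNorm v.asIdeal)) _ fun v _ =>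
        Real.log_le_log two_pos (by exact_mod_cast two_le_absNorm v)).trans ?_
      rw [Finset.sum_filter, show ∑ v ∈ P, _ = wSum (fun v : HeightOneSpectrum (𝓞 K) =>
          if ¬(absNorm v.asIdeal).Prime then Real.log (absNorm v.asIdeal) else 0) x from rfl,
        wSum_fiberwise, Chebyshev.psi, Chebyshev.theta, Finset.sum_filter,
        ← Finset.sum_sub_distrib, Finset.mul_sum]
      refine Finset.sum_le_sum fun n _ => ?_
      by_cases hp : n.Prime
      · rw [Finset.sum_eq_zero fun v hv => by rw [if_neg (by simp [(Finset.mem_filter.mp hv).2, hp])]]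
        simp [hp, ArithmeticFunction.vonMangoldt_apply_prime hp]
      · rw [if_neg hp, sub_zero]
        refine le_trans ?_ ((fiberSum_le (K := K) (w := fun _ => 1) (fun _ => zero_le_one)
          (fun _ => le_rfl) n).trans_eq (one_mul _))
        refine le_trans (Finset.sum_le_sum fun v _ => ?_) (sum_le_fiberSum (fun _ => zero_le_one)
          (fun _ => le_rfl) _ fun v hv => (Finset.mem_filter.mp hv).2)
        split_ifs <;> simp [Real.log_natCast_nonneg]
    have hTA : (T.card : ℝ) ≤ A * Real.sqrt x := by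
      rw [div_mul_eq_mul_div, le_div_iff₀ (Real.log_pos one_lt_two)]
      linarith
    have hsum : ‖wSum (fun v => b' v - b v) x‖ ≤ |B| * (N + A * Real.sqrt x) := by
      rw [wSum, ← Finset.sum_filter_of_ne (p := fun v => v ∈ hS.toFinset ∪ T) fun v hv hne => by
        by_contra hc
        simp only [Finset.mem_union, Set.Finite.mem_toFinset, not_or] at hc
        exact hne (sub_eq_zero.mpr (heq v hc.1
          (not_not.mp fun hp => hc.2 (Finset.mem_filter.mpr ⟨hv, hp⟩))))]
      refine (norm_sum_le _ _).trans ((Finset.sum_le_card_nsmul _ _ |B| fun v _ =>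
        (hB v).trans (le_abs_self B)).trans ?_)
      rw [nsmul_eq_mul, mul_comm]
      refine mul_le_mul_of_nonneg_left (le_trans ?_ (add_le_add le_rfl hTA)) (abs_nonneg B)
      simp only [N]
      rw [← Nat.cast_add, Nat.cast_le]
      exact (Finset.card_le_card fun v hv => (Finset.mem_filter.mp hv).2).trans
        (Finset.card_union_le _ _)
    refine (mul_le_mul_of_nonneg_left hsum hl).trans (le_of_eq ?_)
    have hsq : Real.sqrt x ≠ 0 := (Real.sqrt_pos.mpr hx0).ne'
    field_simp
    linear_combination (Real.log x * |B| * A) * Real.sq_sqrt hx0.le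
  have hsum := Filter.Tendsto.add h hzero
  rw [add_zero] at hsum
  refine hsum.congr fun x => ?_
  rw [← smul_add, wSum, wSum, wSum, ← Finset.sum_add_distrib]
  simp

variable {𝔪 : Ideal (𝓞 K)} {f : Ideal (𝓞 K) →* ℂ}

/-- `1 + re (z f(v)^k)`. -/
def charWeight (f : Ideal (𝓞 K) →* ℂ) (z : ℂ) (p : HeightOneSpectrum (𝓞 K) × ℕ) : ℝ :=
  1 + (z * f p.1.asIdeal ^ (p.2 + 1)).re

theorem IsRayChar.abs_re_le (h : IsRayChar 𝔪 f) {z : ℂ} (hz : ‖z‖ ≤ 1)
    (p : HeightOneSpectrum (𝓞 K) × ℕ) : |(z * f p.1.asIdeal ^ (p.2 + 1)).re| ≤ 1 := by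
  refine (Complex.abs_re_le_norm _).trans ?_
  rw [norm_mul, norm_pow]
  exact mul_le_one₀ hz (by positivity) (pow_le_one₀ (norm_nonneg _) (h.norm_le p.1.ne_bot))

/-- **`ψ` of `1 + re (z f^k)`.** -/
theorem IsRayChar.tendsto_psi_charWeight (h : IsRayChar 𝔪 f) (hnt : IsNontrivial f) {z : ℂ}
    (hz : ‖z‖ ≤ 1) :
    Tendsto (fun x => summatory (fiberSum (charWeight f z)) x / x) atTop (𝓝 1) := by
  have hone : IsRayChar (⊤ : Ideal (𝓞 K)) (1 : Ideal (𝓞 K) →* ℂ) := IsRayChar.one
  have ht : ¬IsNontrivial (1 : Ideal (𝓞 K) →* ℂ) := fun ⟨_, _, _, h1⟩ => h1 rfl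
  set g : Ideal (𝓞 K) →* ℂ := (starRingEnd ℂ).toMonoidHom.comp f
  have hg : IsRayChar 𝔪 g := h.conj
  obtain ⟨G, hG, -, hG'⟩ := exists_heckeG hone
  obtain ⟨E, hE, hE'⟩ := exists_heckeE h hnt
  obtain ⟨E', hE₂, hE₂'⟩ := exists_heckeE hg hnt.conj
  set w := charWeight f z
  have h0 : ∀ p, 0 ≤ w p := fun p => by
    linarith [(abs_le.mp (h.abs_re_le hz p)).1, show w p = 1 + _ from rfl]
  have h2 : ∀ p, w p ≤ 2 := fun p => by
    linarith [(abs_le.mp (h.abs_re_le hz p)).2, show w p = 1 + _ from rfl]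
  set U : Set ℂ := {s | G s ≠ 0 ∧ E s ≠ 0 ∧ E' s ≠ 0}
  have hU : IsOpen U := (isOpen_ne_fun hG.continuous continuous_const).inter
    ((isOpen_ne_fun hE.continuous continuous_const).inter
      (isOpen_ne_fun hE₂.continuous continuous_const))
  refine tendsto_summatory (fun n => tsum_nonneg fun p : PowFiber K n =>
      mul_nonneg (h0 _) (Real.log_natCast_nonneg _))
    (C := 2 * (finrank ℚ K * (Real.log 4 + 4)))
    (mul_nonneg two_pos.le (mul_nonneg (Nat.cast_nonneg _)
      (add_nonneg (Real.log_nonneg (by norm_num)) (by norm_num))))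
    (fun x hx => ?_) hU
    (fun s hs => ⟨hone.heckeG_ne_zero ht hG hG' hs, h.heckeE_ne_zero hE hE' hs,
      hg.heckeE_ne_zero hE₂ hE₂' hs⟩)
    (F := fun s => -deriv G s / G s + z / 2 * (-deriv E s / E s) +
      starRingEnd ℂ z / 2 * (-deriv E' s / E' s)) ?_ fun s hs => ?_
  · refine (Finset.sum_le_sum fun n _ => fiberSum_le h0 h2 n).trans ?_
    rw [← Finset.mul_sum, ← Finset.mul_sum]
    have hψ : ∑ n ∈ Finset.Icc 1 ⌊x⌋₊, Λ n ≤ (Real.log 4 + 4) * x :=
      le_of_eq_of_le (by rw [Chebyshev.psi]; rfl) (Chebyshev.psi_le_const_mul_self hx)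
    linarith [mul_le_mul_of_nonneg_left hψ (Nat.cast_nonneg (α := ℝ) (finrank ℚ K))]
  · exact (((hG.differentiableOn.deriv hU).neg.div hG.differentiableOn fun s hs => hs.1).add
      (((hE.differentiableOn.deriv hU).neg.div hE.differentiableOn fun s hs => hs.2.1).const_mul
        _)).add (((hE₂.differentiableOn.deriv hU).neg.div hE₂.differentiableOn
          fun s hs => hs.2.2).const_mul _)
  set c : HeightOneSpectrum (𝓞 K) × ℕ → ℂ := fun p =>
    ((w p * Real.log (absNorm p.1.asIdeal) : ℝ) : ℂ)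
  have hB : ∀ p, ‖c p‖ ≤ 2 * Real.log (absNorm p.1.asIdeal) := fun p => by
    rw [Complex.norm_real, Real.norm_of_nonneg (mul_nonneg (h0 p) (Real.log_natCast_nonneg _))]
    exact mul_le_mul_of_nonneg_right (h2 p) (Real.log_natCast_nonneg _)
  have he : (fun n => (fiberSum w n : ℂ)) = fun n => ∑' p : PowFiber K n, c p.1 := by
    funext n
    rw [fiberSum, Complex.ofReal_tsum]
  rw [he, (LSeries_fiber two_pos.le hB hs).2]
  set l : HeightOneSpectrum (𝓞 K) → ℂ := fun v => (Real.log (absNorm v.asIdeal) : ℂ)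
  have hfib : ∀ v : HeightOneSpectrum (𝓞 K), HasSum (fun k => c (v, k) * primePow s v ^ (k + 1))
      (l v * (fPow 1 s v / (1 - fPow 1 s v)) + z / 2 * (l v * (fPow f s v / (1 - fPow f s v))) +
        starRingEnd ℂ z / 2 * (l v * (fPow g s v / (1 - fPow g s v)))) := fun v => by
    have e : ∀ {a : ℂ}, ‖a‖ ≤ 1 / 2 → HasSum (fun k : ℕ => a ^ (k + 1)) (a / (1 - a)) :=
      fun {a} ha => by
        simpa [pow_succ', div_eq_mul_inv] using
          (hasSum_geometric_of_norm_lt_one (ha.trans_lt (by norm_num))).mul_left a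
    refine (((e (hone.norm_fPow_le_half hs.le v)).mul_left _).add
      (((e (h.norm_fPow_le_half hs.le v)).mul_left _).mul_left _)).add
        (((e (hg.norm_fPow_le_half hs.le v)).mul_left _).mul_left _) |>.congr_fun fun k => ?_
    simp only [c, w, charWeight, l, fPow, show g v.asIdeal = starRingEnd ℂ (f v.asIdeal) from rfl,
      mul_pow, MonoidHom.one_apply, one_pow, Complex.ofReal_mul,
      Complex.ofReal_add, Complex.ofReal_one, Complex.re_eq_add_conj, map_mul, map_pow]
    ring
  have hval := (summable_mul_pow two_pos.le hB hs).hasSum.prod_fiberwise hfib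
  rw [hval.unique (((hone.hasSum_negLogDeriv hs).add
    ((h.hasSum_negLogDeriv hs).mul_left _)).add ((hg.hasSum_negLogDeriv hs).mul_left _))]
  have hV := (isOpen_lt continuous_const Complex.continuous_re).mem_nhds hs
  have hs1 := sub_one_ne_zero hs
  have eE : heckeL f =ᶠ[𝓝 s] E := by filter_upwards [hV] with y hy using hE' y hy
  have eE₂ : heckeL g =ᶠ[𝓝 s] E' := by filter_upwards [hV] with y hy using hE₂' y hy
  have eG : heckeL (1 : Ideal (𝓞 K) →* ℂ) =ᶠ[𝓝 s] fun y => G y / (y - 1) := by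
    filter_upwards [hV] with y hy
    rw [← hG' y hy, mul_div_cancel_left₀ _ (sub_one_ne_zero hy)]
  have hG0 : G s ≠ 0 := hone.heckeG_ne_zero ht hG hG' hs.le
  have hd : HasDerivAt (fun y => G y / (y - 1))
      ((deriv G s * (s - 1) - G s * 1) / (s - 1) ^ 2) s :=
    (hG s).hasDerivAt.div ((hasDerivAt_id s).sub_const 1) hs1
  rw [eE.deriv_eq, eE.eq_of_nhds, eE₂.deriv_eq, eE₂.eq_of_nhds, eG.deriv_eq, eG.eq_of_nhds,
    hd.deriv, Complex.ofReal_one]
  field_simp
  ring

/-- **A nontrivial character has mean `0`.** -/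
theorem IsRayChar.hasMean_zero (h : IsRayChar 𝔪 f) (hnt : IsNontrivial f) :
    HasMean (fun v => f v.asIdeal) 0 := by
  have hre : ∀ z : ℂ, ‖z‖ ≤ 1 → HasMean (fun v => (z * f v.asIdeal).re) 0 := fun z hz => by
    have h1 : HasMean (fun v => charWeight f z (v, 0)) 1 := by
      refine hasMean_of_psi (w := charWeight f z) (B := 2) (fun p => ?_) (fun p => ?_)
        (h.tendsto_psi_charWeight hnt hz) ?_
      · linarith [(abs_le.mp (h.abs_re_le hz p)).1, show charWeight f z p = 1 + _ from rfl]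
      · linarith [(abs_le.mp (h.abs_re_le hz p)).2, show charWeight f z p = 1 + _ from rfl]
      · rw [show (fun p => 2 - charWeight f z p) = charWeight f (-z) from funext fun p => by
          simp [charWeight]; ring, show (2 : ℝ) - 1 = 1 by norm_num]
        exact h.tendsto_psi_charWeight hnt (by rwa [norm_neg])
    simpa [charWeight] using h1.sub (hasMean_one K)
  have h1 := (hre 1 (by simp)).map (Complex.ofRealCLM)
  have h2 := (hre (-Complex.I) (by simp)).map (Complex.I • Complex.ofRealCLM)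
  have h3 := h1.add h2
  simp only [map_zero, add_zero] at h3
  convert h3 using 1
  funext v
  simp [mul_comm Complex.I]

/-- **A trivial character has mean `1`.** -/
theorem IsRayChar.hasMean_one_of_trivial (h : IsRayChar 𝔪 f) (ht : ¬IsNontrivial f) :
    HasMean (fun v => f v.asIdeal) 1 := by
  have h1 : HasMean (fun _ : HeightOneSpectrum (𝓞 K) => (1 : ℂ)) 1 := by
    simpa using (hasMean_one K).map Complex.ofRealCLM
  exact hasMean_congr _ h.finite_zero
    (fun v => (norm_sub_le _ _).trans (add_le_add (h.norm_le v.ne_bot) (le_of_eq norm_one)))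
    (fun v hv _ => eq_one_of_not_isNontrivial ht v.ne_bot hv) h1

end FA.Hecke

end
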