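import Fermat.Agent.NaturalChebotarev.Continuation

/-!
# Euler products of Hecke L-series

For `1 < re s` the series is the exponential of the series of the logarithms of the Euler factors,
so it has no zero there, and its logarithmic derivative is a series over the primes.  For the
trivial character modulo `1` it is the zeta function; so for any character trivial on the ideals
prime to its modulus the residue at `1` is not zero.
-/

set_option autoImplicit false
set_option linter.unusedSectionVars false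

noncomputable section

open NumberField IsDedekindDomain Module Filter Topology Ideal FA.Ext FA.PrimeIdeal
open FA.AbelianZeta (normPow)
open scoped nonZeroDivisors Classical

namespace FA.Hecke

variable {K : Type*} [Field K] [NumberField K] {𝔪 : Ideal (𝓞 K)} {f : Ideal (𝓞 K) →* ℂ}

/-- `f(v) N(v)^(-s)`. -/
def fPow (f : Ideal (𝓞 K) →* ℂ) (s : ℂ) (v : HeightOneSpectrum (𝓞 K)) : ℂ :=
  f v.asIdeal * primePow s v

theorem IsRayChar.norm_fPow_le (h : IsRayChar 𝔪 f) (s : ℂ) (v : HeightOneSpectrum (𝓞 K)) :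
    ‖fPow f s v‖ ≤ ‖primePow s v‖ := by
  rw [fPow, norm_mul]
  exact mul_le_of_le_one_left (norm_nonneg _) (h.norm_le v.ne_bot)

theorem IsRayChar.norm_fPow_le_half (h : IsRayChar 𝔪 f) {s : ℂ} (hs : 1 ≤ s.re)
    (v : HeightOneSpectrum (𝓞 K)) : ‖fPow f s v‖ ≤ 1 / 2 :=
  (h.norm_fPow_le s v).trans (norm_primePow_le_half hs v)

theorem IsRayChar.norm_logTerm_le (h : IsRayChar 𝔪 f) {s : ℂ} (hs : 1 ≤ s.re)
    (v : HeightOneSpectrum (𝓞 K)) :
    ‖-Complex.log (1 - fPow f s v)‖ ≤ 3 / 2 * zN s.re (primeIdeal v) := by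
  rw [norm_neg, sub_eq_add_neg]
  refine (Complex.norm_log_one_add_half_le_self
    ((norm_neg _).trans_le (h.norm_fPow_le_half hs v))).trans ?_
  rw [norm_neg, ← norm_primePow]
  exact mul_le_mul_of_nonneg_left (h.norm_fPow_le s v) (by norm_num)

theorem IsRayChar.summable_logTerm (h : IsRayChar 𝔪 f) {s : ℂ} (hs : 1 < s.re) :
    Summable fun v : HeightOneSpectrum (𝓞 K) => -Complex.log (1 - fPow f s v) :=
  Summable.of_norm_bounded ((summable_zN_primeIdeal hs).mul_left _) (h.norm_logTerm_le hs.le)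

/-- The logarithm given by the Euler product. -/
def logF (f : Ideal (𝓞 K) →* ℂ) (s : ℂ) : ℂ :=
  ∑' v : HeightOneSpectrum (𝓞 K), -Complex.log (1 - fPow f s v)

/-- **The Euler product.** -/
theorem IsRayChar.exp_logF (h : IsRayChar 𝔪 f) {s : ℂ} (hs : 1 < s.re) :
    Complex.exp (logF f s) = heckeL f s := by
  have hlt : ∀ v, ‖lHom f s (primeIdeal v)‖ < 1 := fun v =>
    lt_of_le_of_lt (h.norm_fPow_le_half hs.le v) (by norm_num)
  have hp : HasProd _ (Complex.exp (logF f s)) := (h.summable_logTerm hs).hasSum.cexp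
  refine tendsto_nhds_unique hp
    ((tendsto_eulerProduct _ (h.summable_lHom hs) hlt).congr fun V => ?_)
  refine Finset.prod_congr rfl fun v _ => ?_
  rw [Function.comp_apply, Complex.exp_neg,
    Complex.exp_log (Complex.slitPlane_ne_zero (one_sub_mem_slitPlane
      (h.norm_fPow_le_half hs.le v)))]
  rfl

theorem IsRayChar.heckeL_ne_zero (h : IsRayChar 𝔪 f) {s : ℂ} (hs : 1 < s.re) :
    heckeL f s ≠ 0 :=
  h.exp_logF hs ▸ Complex.exp_ne_zero _

theorem IsRayChar.hasDerivAt_logTerm (h : IsRayChar 𝔪 f) {s : ℂ} (hs : 1 ≤ s.re)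
    (v : HeightOneSpectrum (𝓞 K)) :
    HasDerivAt (fun z => -Complex.log (1 - fPow f z v))
      (-((Real.log (absNorm v.asIdeal) : ℂ) * (fPow f s v / (1 - fPow f s v)))) s := by
  have hn : ((absNorm v.asIdeal : ℕ) : ℂ) ≠ 0 :=
    Nat.cast_ne_zero.mpr (zero_lt_two.trans_le (two_le_absNorm v)).ne'
  have h' := ((((hasDerivAt_id s).neg.const_cpow (c := ((absNorm v.asIdeal : ℕ) : ℂ))
    (Or.inl hn)).const_mul (f v.asIdeal)).const_sub 1).clog
      (one_sub_mem_slitPlane (h.norm_fPow_le_half hs v))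
  refine h'.neg.congr_deriv ?_
  simp only [Pi.neg_apply, id_eq, Complex.natCast_log, fPow, primePow]
  ring

/-- **The logarithmic derivative.** -/
theorem IsRayChar.hasSum_negLogDeriv (h : IsRayChar 𝔪 f) {s : ℂ} (hs : 1 < s.re) :
    HasSum (fun v : HeightOneSpectrum (𝓞 K) =>
      (Real.log (absNorm v.asIdeal) : ℂ) * (fPow f s v / (1 - fPow f s v)))
      (-deriv (heckeL f) s / heckeL f s) := by
  set σ := (1 + s.re) / 2
  have hσ : 1 < σ := by simp only [σ]; linarith
  set V : Set ℂ := {z | σ < z.re}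
  have hV : IsOpen V := isOpen_lt continuous_const Complex.continuous_re
  have hsV : s ∈ V := show σ < s.re by simp only [σ]; linarith
  have hb : ∀ (v : HeightOneSpectrum (𝓞 K)) (z : ℂ), z ∈ V →
      ‖-Complex.log (1 - fPow f z v)‖ ≤ 3 / 2 * zN σ (primeIdeal v) := fun v z hz =>
    (h.norm_logTerm_le (hσ.le.trans (le_of_lt hz)) v).trans (mul_le_mul_of_nonneg_left
      (Real.rpow_le_rpow_of_exponent_le (one_le_absNorm _) (neg_le_neg (le_of_lt hz)))
      (by norm_num))
  have hd : ∀ v : HeightOneSpectrum (𝓞 K),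
      DifferentiableOn ℂ (fun z => -Complex.log (1 - fPow f z v)) V := fun v z hz =>
    (h.hasDerivAt_logTerm (hσ.le.trans (le_of_lt hz)) v).differentiableAt.differentiableWithinAt
  have hu := (summable_zN_primeIdeal (K := K) hσ).mul_left (3 / 2)
  have hL := Complex.hasSum_deriv_of_summable_norm hu hd hV hb hsV
  have hdiff : DifferentiableAt ℂ (logF f) s :=
    (Complex.differentiableOn_tsum_of_summable_norm hu hd hV hb).differentiableAt
      (hV.mem_nhds hsV)
  have hexp : deriv (heckeL f) s = deriv (logF f) s * heckeL f s := by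
    have he : heckeL f =ᶠ[𝓝 s] fun z => Complex.exp (logF f z) := by
      filter_upwards [(isOpen_lt continuous_const Complex.continuous_re).mem_nhds hs] with z hz
      exact (h.exp_logF hz).symm
    rw [he.deriv_eq, deriv_cexp hdiff, h.exp_logF hs, mul_comm]
  rw [hexp, ← neg_mul, mul_div_cancel_right₀ _ (h.heckeL_ne_zero hs)]
  refine hL.neg.congr_fun fun v => ?_
  rw [(h.hasDerivAt_logTerm hs.le v).deriv, neg_neg]

theorem heckeL_one {s : ℂ} (hs : 1 < s.re) :
    heckeL (1 : Ideal (𝓞 K) →* ℂ) s = dedekindZeta K s := by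
  rw [FA.AbelianZeta.dedekindZeta_eq_tsum hs]
  exact tsum_congr fun I => by rw [lHom_apply, MonoidHom.one_apply, one_mul]

/-- **A trivial character is the zeta function without finitely many factors.** -/
theorem heckeL_of_trivial (h : IsRayChar 𝔪 f) (ht : ¬IsNontrivial f) {s : ℂ} (hs : 1 < s.re) :
    heckeL f s = dedekindZeta K s * ∏ v ∈ h.finite_zero.toFinset, (1 - primePow s v) := by
  have h1 : IsRayChar (⊤ : Ideal (𝓞 K)) (1 : Ideal (𝓞 K) →* ℂ) := IsRayChar.one
  set S := h.finite_zero.toFinset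
  have hd : ∀ v, v ∉ S → fPow f s v = fPow (1 : Ideal (𝓞 K) →* ℂ) s v := fun v hv => by
    rw [fPow, fPow, MonoidHom.one_apply, eq_one_of_not_isNontrivial ht v.ne_bot fun h0 =>
      hv (h.finite_zero.mem_toFinset.mpr h0)]
  have hsum : logF f s = logF (1 : Ideal (𝓞 K) →* ℂ) s + ∑ v ∈ S,
      (-Complex.log (1 - fPow f s v) - -Complex.log (1 - fPow (1 : Ideal (𝓞 K) →* ℂ) s v)) := by
    rw [logF, logF, ← sub_eq_iff_eq_add', ← (h.summable_logTerm hs).tsum_sub
      (h1.summable_logTerm hs)]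
    exact tsum_eq_sum fun v hv => by rw [hd v hv, sub_self]
  rw [← h.exp_logF hs, hsum, Complex.exp_add, h1.exp_logF hs, heckeL_one hs, Complex.exp_sum]
  refine congrArg _ (Finset.prod_congr rfl fun v hv => ?_)
  rw [fPow, fPow, h.finite_zero.mem_toFinset.mp hv, zero_mul, sub_zero, Complex.log_one,
    MonoidHom.one_apply, one_mul, neg_zero, zero_sub, neg_neg,
    Complex.exp_log (Complex.slitPlane_ne_zero
      (one_sub_mem_slitPlane (norm_primePow_le_half hs.le v)))]

theorem residue_ne_zero_of_trivial (h : IsRayChar 𝔪 f) (ht : ¬IsNontrivial f) {G : ℂ → ℂ}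
    (hG : Differentiable ℂ G) (hG' : ∀ s : ℂ, 1 < s.re → (s - 1) * heckeL f s = G s) :
    G 1 ≠ 0 := by
  obtain ⟨G₀, hG₀, h₀, hG₀'⟩ := exists_charG (1 : ClassGroup (𝓞 K) →* ℂˣ)
  rw [if_pos rfl] at h₀
  have hd : Differentiable ℂ fun s => ∏ v ∈ h.finite_zero.toFinset, (1 - primePow s v) :=
    Differentiable.fun_finsetProd fun v _ => (differentiable_neg.const_cpow
      (Or.inl (Nat.cast_ne_zero.mpr (zero_lt_two.trans_le (two_le_absNorm v)).ne'))).const_sub 1
  rw [eq_of_eq_halfPlane hG (hG₀.mul hd) fun s hs => by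
    rw [Pi.mul_apply, ← hG' s hs, ← hG₀' s hs, heckeL_of_trivial h ht hs, classLC_one hs,
      mul_assoc]]
  refine mul_ne_zero ?_ (Finset.prod_ne_zero_iff.mpr fun v _ =>
    Complex.slitPlane_ne_zero (one_sub_mem_slitPlane (norm_primePow_le_half (by simp) v)))
  rw [h₀, Complex.ofReal_ne_zero]
  exact dedekindZeta_residue_ne_zero K

end FA.Hecke

end
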