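import Fermat.Agent.NaturalChebotarev.Counting

/-!
# Narrow ray class groups and their primes

The ideals prime to `𝔪` modulo the totally positive principal ideals congruent to `1` form a finite
group, and the orthogonality of its characters distributes the primes evenly in the classes.
-/

set_option autoImplicit false
set_option linter.unusedSectionVars false

noncomputable section

open NumberField NumberField.InfinitePlace IsDedekindDomain Filter Topology Ideal FA.Ext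
open scoped nonZeroDivisors Classical

namespace FA.Hecke

variable {K : Type*} [Field K] [NumberField K] {𝔪 : Ideal (𝓞 K)}

/-- Congruent to `1` and totally positive. -/
def IsRayElt (𝔪 : Ideal (𝓞 K)) (x : 𝓞 K) : Prop :=
  x ≠ 0 ∧ x - 1 ∈ 𝔪 ∧ ∀ φ : K →+* ℝ, 0 < φ x

theorem isRayElt_one : IsRayElt 𝔪 1 := ⟨one_ne_zero, by simp, fun φ => by simp⟩

theorem IsRayElt.mul {x y : 𝓞 K} (hx : IsRayElt 𝔪 x) (hy : IsRayElt 𝔪 y) :
    IsRayElt 𝔪 (x * y) := by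
  refine ⟨mul_ne_zero hx.1 hy.1, ?_, fun φ => ?_⟩
  · rw [show x * y - 1 = (x - 1) * y + (y - 1) by ring]
    exact 𝔪.add_mem (𝔪.mul_mem_right _ hx.2.1) hy.2.1
  · push_cast
    rw [map_mul]
    exact mul_pos (hx.2.2 φ) (hy.2.2 φ)

/-- The ideals prime to `𝔪`. -/
def coprimeIdeals (𝔪 : Ideal (𝓞 K)) : Submonoid (Ideal (𝓞 K))⁰ where
  carrier := {I | I.1 ⊔ 𝔪 = ⊤}
  one_mem' := by simp [Ideal.one_eq_top]
  mul_mem' {I J} hI hJ := by
    show (I * J : (Ideal (𝓞 K))⁰).1 ⊔ 𝔪 = ⊤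
    rw [Submonoid.coe_mul, mul_sup_eq_top]
    exact ⟨hI, hJ⟩

/-- `(x) I = (y) J` for totally positive `x` and `y` congruent to `1`. -/
def rayCon (𝔪 : Ideal (𝓞 K)) : Con (coprimeIdeals 𝔪) where
  r I J := ∃ x y : 𝓞 K, IsRayElt 𝔪 x ∧ IsRayElt 𝔪 y ∧
    Ideal.span {x} * I.1.1 = Ideal.span {y} * J.1.1
  iseqv :=
    { refl := fun I => ⟨1, 1, isRayElt_one, isRayElt_one, rfl⟩
      symm := fun ⟨x, y, hx, hy, h⟩ => ⟨y, x, hy, hx, h.symm⟩
      trans := fun {I J L} ⟨x, y, hx, hy, h⟩ ⟨x', y', hx', hy', h'⟩ =>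
        ⟨x * x', y * y', hx.mul hx', hy.mul hy', by
          rw [← Ideal.span_singleton_mul_span_singleton, ← Ideal.span_singleton_mul_span_singleton,
            mul_assoc (Ideal.span {y}) _ L.1.1, ← h', mul_comm (Ideal.span {x}) (Ideal.span {x'}),
            mul_assoc, h, mul_left_comm]⟩ }
  mul' := fun {I J I' J'} ⟨x, y, hx, hy, h⟩ ⟨x', y', hx', hy', h'⟩ =>
    ⟨x * x', y * y', hx.mul hx', hy.mul hy', by
      rw [Submonoid.coe_mul, Submonoid.coe_mul, Submonoid.coe_mul, Submonoid.coe_mul,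
        ← Ideal.span_singleton_mul_span_singleton, ← Ideal.span_singleton_mul_span_singleton,
        mul_mul_mul_comm, h, h', mul_mul_mul_comm]⟩

/-- **The narrow ray class group modulo `𝔪`.** -/
abbrev RayClassGroup (𝔪 : Ideal (𝓞 K)) := ((rayCon 𝔪).Quotient)ˣ

theorem isUnit_rayCon (h𝔪 : 𝔪 ≠ ⊥) (I : coprimeIdeals 𝔪) :
    IsUnit ((rayCon 𝔪).mk' I) := by
  set n := classNumber K
  set N := unitCount 𝔪
  have h1 : ClassGroup.mk0 (I.1 ^ n) = 1 := by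
    simp only [n]
    rw [map_pow, classNumber, pow_card_eq_one]
  obtain ⟨x, hx⟩ := (ClassGroup.mk0_eq_one_iff (SetLike.coe_mem (I.1 ^ n))).mp h1
  have hx' : I.1.1 ^ n = Ideal.span {x} := hx
  have hx0 : x ≠ 0 := fun h0 =>
    pow_ne_zero n (nonZeroDivisors.coe_ne_zero I.1) (by rw [hx', h0]; simp)
  have hcx : Ideal.span {x} ⊔ 𝔪 = ⊤ := by
    rw [← hx', ← Ideal.isCoprime_iff_sup_eq]
    exact (Ideal.isCoprime_iff_sup_eq.mpr I.2).pow_left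
  obtain ⟨r1, r2, r3⟩ := ray_pow h𝔪 hx0 hcx
  refine IsUnit.of_pow_eq_one (n := n * (2 * N)) ?_
    (Nat.mul_pos (classNumber_pos K) (Nat.mul_pos two_pos (unitCount_pos h𝔪))).ne'
  rw [← map_pow, ← map_one (rayCon 𝔪).mk']
  refine (Con.eq _).mpr ⟨1, _, isRayElt_one, ⟨r1, r2, r3⟩, ?_⟩
  simp only [SubmonoidClass.coe_pow, OneMemClass.coe_one, mul_one, Ideal.span_singleton_one,
    Ideal.top_mul, pow_mul, hx', Ideal.span_singleton_pow, N]

/-- The class of an ideal. -/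
def rayClass (h𝔪 : 𝔪 ≠ ⊥) : coprimeIdeals 𝔪 →* RayClassGroup 𝔪 :=
  IsUnit.liftRight ((rayCon 𝔪).mk') (isUnit_rayCon h𝔪)

theorem rayClass_eq_iff (h𝔪 : 𝔪 ≠ ⊥) {I J : coprimeIdeals 𝔪} :
    rayClass h𝔪 I = rayClass h𝔪 J ↔ ∃ x y : 𝓞 K, IsRayElt 𝔪 x ∧ IsRayElt 𝔪 y ∧
      Ideal.span {x} * I.1.1 = Ideal.span {y} * J.1.1 := by
  rw [Units.ext_iff, rayClass, IsUnit.coe_liftRight, IsUnit.coe_liftRight]
  exact (rayCon 𝔪).eq

theorem rayClass_surjective (h𝔪 : 𝔪 ≠ ⊥) : Function.Surjective (rayClass h𝔪) := fun γ => by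
  obtain ⟨I, hI⟩ := Con.mk'_surjective (γ : (rayCon 𝔪).Quotient)
  exact ⟨I, Units.ext (by rw [rayClass, IsUnit.coe_liftRight, hI])⟩

theorem finite_rayClassGroup (h𝔪 : 𝔪 ≠ ⊥) : Finite (RayClassGroup 𝔪) := by
  have : Finite (𝓞 K ⧸ 𝔪) := Ideal.finiteQuotientOfFreeOfNeBot 𝔪 h𝔪
  choose J hJC hJ using exists_coprime_class h𝔪
  have hgen : ∀ I : coprimeIdeals 𝔪, ∃ x : 𝓞 K, x ≠ 0 ∧
      I.1.1 * (J (ClassGroup.mk0 I.1)).1 = Ideal.span {x} := fun I => by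
    obtain ⟨x, hx⟩ := (ClassGroup.mk0_eq_one_iff
      (SetLike.coe_mem (I.1 * J (ClassGroup.mk0 I.1)))).mp (by
        show ClassGroup.mk0 (I.1 * J (ClassGroup.mk0 I.1)) = 1
        rw [map_mul, hJC, mul_inv_cancel])
    refine ⟨x, fun h0 => nonZeroDivisors.coe_ne_zero (I.1 * J (ClassGroup.mk0 I.1))
      (hx.trans (by rw [h0]; simp)), hx⟩
  choose x hx0 hx using hgen
  let key : coprimeIdeals 𝔪 →
      ClassGroup (𝓞 K) × (𝓞 K ⧸ 𝔪) × ({w : InfinitePlace K // IsReal w} → Bool) :=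
    fun I => (ClassGroup.mk0 I.1, Ideal.Quotient.mk 𝔪 (x I), sgn (intEmb K (x I)))
  have hkey : ∀ I I', key I = key I' → rayClass h𝔪 I = rayClass h𝔪 I' := by
    intro I I' h
    simp only [key, Prod.mk.injEq] at h
    obtain ⟨hC, hmod, hsgn⟩ := h
    have hc : Ideal.span {x I'} ⊔ 𝔪 = ⊤ := by
      rw [← hx I']; exact mul_sup_eq_top.mpr ⟨I'.2, hJ _⟩
    set k := 2 * unitCount 𝔪 - 1
    have e := ray_mul h𝔪 (hx0 I) (hx0 I') hc (Ideal.Quotient.eq.mp hmod)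
      (mul_pos_of_sgn_eq (hx0 I) (hx0 I') hsgn)
    refine (rayClass_eq_iff h𝔪).mpr
      ⟨x I' ^ (2 * unitCount 𝔪), x I * x I' ^ k, ray_pow h𝔪 (hx0 I') hc, e, ?_⟩
    refine mul_right_cancel₀ (nonZeroDivisors.coe_ne_zero (J (ClassGroup.mk0 I.1))) ?_
    rw [mul_assoc, hx I, mul_assoc, hC, hx I', Ideal.span_singleton_mul_span_singleton,
      Ideal.span_singleton_mul_span_singleton]
    congr 2
    rw [show 2 * unitCount 𝔪 = k + 1 from by have := unitCount_pos h𝔪; omega, pow_succ]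
    ring
  choose g hg using rayClass_surjective h𝔪
  exact Finite.of_injective (key ∘ g) fun a b h => by rw [← hg a, ← hg b, hkey _ _ h]

/-- The function on ideals of a character of the ray class group. -/
def rayCharFn (h𝔪 : 𝔪 ≠ ⊥) (χ : RayClassGroup 𝔪 →* ℂˣ) : Ideal (𝓞 K) →* ℂ where
  toFun I := if h : I ≠ ⊥ ∧ I ⊔ 𝔪 = ⊤ then
    (χ (rayClass h𝔪 ⟨⟨I, mem_nonZeroDivisors_iff_ne_zero.mpr h.1⟩, h.2⟩) : ℂ) else 0
  map_one' := by
    rw [dif_pos ⟨(one_ne_zero : (1 : Ideal (𝓞 K)) ≠ 0), by simp [Ideal.one_eq_top]⟩]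
    show ((χ (rayClass h𝔪 1) : ℂˣ) : ℂ) = 1
    rw [map_one, map_one, Units.val_one]
  map_mul' I J := by
    by_cases hI : I ≠ ⊥ ∧ I ⊔ 𝔪 = ⊤
    · by_cases hJ : J ≠ ⊥ ∧ J ⊔ 𝔪 = ⊤
      · rw [dif_pos hI, dif_pos hJ, dif_pos ⟨mul_ne_zero hI.1 hJ.1, mul_sup_eq_top.mpr ⟨hI.2, hJ.2⟩⟩,
          ← Units.val_mul, ← map_mul, ← map_mul]
        rfl
      · rw [dif_neg hJ, mul_zero, dif_neg fun h => hJ ⟨right_ne_zero_of_mul h.1,
          (mul_sup_eq_top.mp h.2).2⟩]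
    · rw [dif_neg hI, zero_mul, dif_neg fun h => hI ⟨left_ne_zero_of_mul h.1,
        (mul_sup_eq_top.mp h.2).1⟩]

theorem rayCharFn_apply (h𝔪 : 𝔪 ≠ ⊥) (χ : RayClassGroup 𝔪 →* ℂˣ) (I : coprimeIdeals 𝔪) :
    rayCharFn h𝔪 χ I.1.1 = (χ (rayClass h𝔪 I) : ℂ) :=
  dif_pos ⟨nonZeroDivisors.coe_ne_zero I.1, I.2⟩

theorem isRayChar_rayCharFn (h𝔪 : 𝔪 ≠ ⊥) (χ : RayClassGroup 𝔪 →* ℂˣ) :
    IsRayChar 𝔪 (rayCharFn h𝔪 χ) where
  ne_bot := h𝔪
  ne_zero_iff I hI := by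
    show (if h : I ≠ ⊥ ∧ I ⊔ 𝔪 = ⊤ then _ else 0) ≠ 0 ↔ _
    split_ifs with h
    · exact iff_of_true (Units.ne_zero _) h.2
    · exact iff_of_false (fun h0 => h0 rfl) fun hc => h ⟨hI, hc⟩
  ray x hx0 hx hp := by
    have hs : Ideal.span {x} ≠ ⊥ := by simpa using hx0
    have hc : Ideal.span {x} ⊔ 𝔪 = ⊤ := by
      rw [span_sup_congr hx, Ideal.span_singleton_one, top_sup_eq]
    let I : coprimeIdeals 𝔪 := ⟨⟨Ideal.span {x}, mem_nonZeroDivisors_iff_ne_zero.mpr hs⟩, hc⟩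
    rw [show Ideal.span {x} = I.1.1 from rfl, rayCharFn_apply,
      show rayClass h𝔪 I = rayClass h𝔪 1 from (rayClass_eq_iff h𝔪).mpr
        ⟨1, x, isRayElt_one, ⟨hx0, hx, hp⟩, by simp [I, Ideal.one_eq_top]⟩,
      map_one, map_one, Units.val_one]

/-- The indicator of the primes of a ray class. -/
def rayInd (h𝔪 : 𝔪 ≠ ⊥) (γ : RayClassGroup 𝔪) (v : HeightOneSpectrum (𝓞 K)) : ℝ :=
  if ∃ hv : v.asIdeal ⊔ 𝔪 = ⊤, rayClass h𝔪 ⟨primeIdeal v, hv⟩ = γ then 1 else 0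

/-- **The primes are equidistributed in the ray classes.** -/
theorem hasMean_rayInd (h𝔪 : 𝔪 ≠ ⊥) (γ : RayClassGroup 𝔪) :
    HasMean (rayInd h𝔪 γ) (Nat.card (RayClassGroup 𝔪) : ℝ)⁻¹ := by
  have := finite_rayClassGroup h𝔪
  have : Fintype (RayClassGroup 𝔪) := Fintype.ofFinite _
  let _ : Fintype (RayClassGroup 𝔪 →* ℂˣ) := FA.Weight1.fintypeDual (U := RayClassGroup 𝔪)
  have hchar : ∀ χ : RayClassGroup 𝔪 →* ℂˣ, HasMean (fun v => rayCharFn h𝔪 χ v.asIdeal)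
      (if χ = 1 then 1 else 0) := fun χ => by
    have h := isRayChar_rayCharFn h𝔪 χ
    split_ifs with h1
    · refine h.hasMean_one_of_trivial ?_
      rintro ⟨I, hI, h0, h2⟩
      let I' : coprimeIdeals 𝔪 :=
        ⟨⟨I, mem_nonZeroDivisors_iff_ne_zero.mpr hI⟩, (h.ne_zero_iff I hI).mp h0⟩
      rw [show I = I'.1.1 from rfl, rayCharFn_apply, h1] at h2
      exact h2 rfl
    · refine h.hasMean_zero ?_
      obtain ⟨δ, hδ⟩ : ∃ δ, χ δ ≠ 1 := not_forall.mp fun h' => h1 (MonoidHom.ext h')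
      obtain ⟨I, rfl⟩ := rayClass_surjective h𝔪 δ
      exact ⟨I.1.1, nonZeroDivisors.coe_ne_zero I.1, by rw [rayCharFn_apply]; exact Units.ne_zero _,
        by rw [rayCharFn_apply]; exact fun h' => hδ (Units.ext h')⟩
  have h := HasMean.finset_sum Finset.univ fun χ _ => (hchar χ).map
    (((Nat.card (RayClassGroup 𝔪) : ℂ)⁻¹ * (χ γ⁻¹ : ℂ)) •
      ContinuousLinearMap.id ℂ ℂ |>.restrictScalars ℝ)
  simp only [ContinuousLinearMap.coe_restrictScalars', _root_.smul_apply,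
    ContinuousLinearMap.id_apply, smul_eq_mul, mul_ite, mul_one, mul_zero,
    Finset.sum_ite_eq', Finset.mem_univ, if_true, MonoidHom.one_apply, Units.val_one] at h
  have h2 := h.map Complex.reCLM
  simp only [Complex.reCLM_apply] at h2
  convert h2 using 1
  · funext v
    by_cases hv : v.asIdeal ⊔ 𝔪 = ⊤
    · have e : ∀ χ, (Nat.card (RayClassGroup 𝔪) : ℂ)⁻¹ * (χ γ⁻¹ : ℂ) *
          rayCharFn h𝔪 χ v.asIdeal = (Nat.card (RayClassGroup 𝔪) : ℂ)⁻¹ *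
            (χ (γ⁻¹ * rayClass h𝔪 ⟨primeIdeal v, hv⟩) : ℂ) := fun χ => by
        rw [map_mul, Units.val_mul, ← rayCharFn_apply h𝔪 χ ⟨primeIdeal v, hv⟩, mul_assoc]
        rfl
      have hs : ∑ χ : RayClassGroup 𝔪 →* ℂˣ, (χ (γ⁻¹ * rayClass h𝔪 ⟨primeIdeal v, hv⟩) : ℂ) =
          if γ⁻¹ * rayClass h𝔪 ⟨primeIdeal v, hv⟩ = 1 then
            (Fintype.card (RayClassGroup 𝔪) : ℂ) else 0 := by
        convert FA.Weight1.sum_char_apply (U := RayClassGroup 𝔪) _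
      simp only [e, ← Finset.mul_sum, hs, rayInd, inv_mul_eq_one]
      by_cases hγ : rayClass h𝔪 ⟨primeIdeal v, hv⟩ = γ
      · rw [if_pos ⟨hv, hγ⟩, if_pos hγ.symm, Nat.card_eq_fintype_card,
          inv_mul_cancel₀ (Nat.cast_ne_zero.mpr Fintype.card_ne_zero), Complex.one_re]
      · rw [if_neg fun ⟨_, h'⟩ => hγ h', if_neg (Ne.symm hγ), mul_zero, Complex.zero_re]
    · rw [rayInd, if_neg fun ⟨h', _⟩ => hv h']
      simp [rayCharFn, hv]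
  · simp

end FA.Hecke

end
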