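import Fermat.Agent.NaturalChebotarev.Euler
import Fermat.Agent.PrimeIdealTheorem.Nonvanishing

/-!
# Hecke L-series have no zeros on `1 ≤ re s`

Mertens' inequality for `ζ³ L(f)⁴ L(f²)` excludes the zeros on the line except at `1` when `f²` is
trivial; then Landau's argument applies to `ζ(s) L(s, f) (1 - N(v₀)^(-2 s))`, `v₀` prime to the
modulus.
-/

set_option autoImplicit false
set_option linter.unusedSectionVars false

noncomputable section

open NumberField IsDedekindDomain Module Filter Topology Ideal FA.Ext FA.PrimeIdeal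
open scoped nonZeroDivisors Classical ComplexOrder ContDiff

namespace FA.Hecke

variable {K : Type*} [Field K] [NumberField K] {𝔪 : Ideal (𝓞 K)} {f : Ideal (𝓞 K) →* ℂ}

theorem IsRayChar.exists_prime_ne_zero (h : IsRayChar 𝔪 f) :
    ∃ v : HeightOneSpectrum (𝓞 K), f v.asIdeal ≠ 0 := by
  obtain ⟨q, hqN, hq⟩ := Nat.exists_infinite_primes (absNorm 𝔪 + 1)
  have hne : Ideal.span {(q : 𝓞 K)} ≠ ⊤ := fun h1 => by
    have h2 := congrArg absNorm h1
    rw [PrimeIdeal.absNorm_span_natCast, Ideal.absNorm_top, pow_eq_one_iff_left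
      (finrank_pos (R := ℚ) (M := K)).ne'] at h2
    exact hq.ne_one h2
  obtain ⟨P, hP, hle⟩ := Ideal.exists_le_maximal _ hne
  set v : HeightOneSpectrum (𝓞 K) := ⟨P, hP.isPrime,
    Ring.ne_bot_of_isMaximal_of_not_isField hP (RingOfIntegers.not_isField K)⟩
  refine ⟨v, fun h0 => ?_⟩
  obtain ⟨i, hi, hN⟩ := exists_absNorm_eq_pow hq
    (show (q : 𝓞 K) ∈ v.asIdeal from hle (Ideal.mem_span_singleton_self _))
  have hm : 𝔪 ≤ v.asIdeal := by
    by_contra hm
    refine (h.ne_zero_iff _ v.ne_bot).mpr (v.isMaximal.out.2 _ ?_) h0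
    exact lt_of_le_of_ne le_sup_left fun he => hm (sup_eq_left.mp he.symm)
  have h1 := Nat.le_of_dvd (Nat.pos_of_ne_zero fun h1 => h.ne_bot (absNorm_eq_zero_iff.mp h1))
    (map_dvd absNorm (Ideal.dvd_iff_le.mpr hm))
  have h2 : q ≤ q ^ i := Nat.le_self_pow hi.ne' q
  rw [← hN] at h2
  omega

/-- **The inequality of Mertens.** -/
theorem IsRayChar.one_le_norm_product (h : IsRayChar 𝔪 f) {σ : ℝ} (hσ : 1 < σ) (t : ℝ) :
    1 ≤ ‖heckeL (1 : Ideal (𝓞 K) →* ℂ) σ ^ 3 * heckeL f (σ + t * Complex.I) ^ 4 *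
      heckeL (f * f) (σ + 2 * t * Complex.I)‖ := by
  have h1 : IsRayChar (⊤ : Ideal (𝓞 K)) (1 : Ideal (𝓞 K) →* ℂ) := IsRayChar.one
  have h₀ : 1 < ((σ : ℂ)).re := by simpa using hσ
  have h₁ : 1 < ((σ : ℂ) + t * Complex.I).re := by simpa using hσ
  have h₂ : 1 < ((σ : ℂ) + 2 * t * Complex.I).re := by simpa using hσ
  have H₀ := h1.summable_logTerm h₀
  have H₁ := h.summable_logTerm h₁
  have H₂ := (h.mul h).summable_logTerm h₂
  have hsum₀ := (Complex.hasSum_re H₀.hasSum).summable.mul_left 3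
  have hsum₁ := (Complex.hasSum_re H₁.hasSum).summable.mul_left 4
  have hsum₂ := (Complex.hasSum_re H₂.hasSum).summable
  rw [← h1.exp_logF h₀, ← h.exp_logF h₁, ← (h.mul h).exp_logF h₂]
  simp only [← Complex.exp_nat_mul, Nat.cast_ofNat, ← Complex.exp_add, Complex.norm_exp,
    Complex.add_re, Complex.mul_re, Complex.re_ofNat, Complex.im_ofNat, zero_mul, sub_zero,
    Real.one_le_exp_iff, logF]
  rw [Complex.re_tsum H₀, Complex.re_tsum H₁, Complex.re_tsum H₂, ← tsum_mul_left, ← tsum_mul_left,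
    ← hsum₀.tsum_add hsum₁, ← (hsum₀.add hsum₁).tsum_add hsum₂]
  refine tsum_nonneg fun v => ?_
  set n := absNorm v.asIdeal
  have hn : 0 < n := zero_lt_two.trans_le (two_le_absNorm v)
  have hn0 : (n : ℂ) ≠ 0 := Nat.cast_ne_zero.mpr hn.ne'
  have e₀ : fPow (1 : Ideal (𝓞 K) →* ℂ) (σ : ℂ) v = (((n : ℝ) ^ (-σ) : ℝ) : ℂ) := by
    rw [Complex.ofReal_cpow (Nat.cast_nonneg n)]; simp [fPow, primePow, n]
  have ha : ((n : ℝ) ^ (-σ)) < 1 := by
    have := norm_primePow_le_half (s := (σ : ℂ)) h₀.le v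
    rw [norm_primePow, Complex.ofReal_re, zN_primeIdeal] at this
    linarith
  rcases h.prime_zero_or_one v with hz0 | hz1
  · have hpos := re_log_comb (Real.rpow_nonneg (Nat.cast_nonneg n) (-σ)) ha (z := 1) (by simp)
    rw [one_pow, mul_one] at hpos
    rw [e₀, fPow, fPow, MonoidHom.mul_apply, hz0, zero_mul, zero_mul, sub_zero, zero_mul,
      sub_zero, Complex.log_one, neg_zero, Complex.zero_re]
    linarith
  set z : ℂ := f v.asIdeal * (n : ℂ) ^ (-((t : ℂ) * Complex.I)) with hz'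
  have hz : ‖z‖ = 1 := by
    rw [hz', norm_mul, hz1, Complex.norm_natCast_cpow_of_pos hn]; simp
  have e₁ : fPow f ((σ : ℂ) + t * Complex.I) v =
      fPow (1 : Ideal (𝓞 K) →* ℂ) (σ : ℂ) v * z := by
    rw [fPow, fPow, primePow, primePow, hz', neg_add, Complex.cpow_add _ _ hn0,
      MonoidHom.one_apply, one_mul]
    ring
  have e₂ : fPow (f * f) ((σ : ℂ) + 2 * t * Complex.I) v =
      fPow (1 : Ideal (𝓞 K) →* ℂ) (σ : ℂ) v * z ^ 2 := by
    rw [fPow, fPow, primePow, primePow, hz', neg_add, Complex.cpow_add _ _ hn0, mul_pow,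
      ← Complex.cpow_nat_mul, MonoidHom.mul_apply, MonoidHom.one_apply, one_mul,
      show -(2 * (t : ℂ) * Complex.I) = ((2 : ℕ) : ℂ) * -((t : ℂ) * Complex.I) by push_cast; ring]
    ring
  rw [e₁, e₂, e₀]
  exact re_log_comb (by positivity) ha hz

theorem IsRayChar.false_of_zero (h : IsRayChar 𝔪 f) (t : ℝ) {g k : ℝ → ℂ} (hg : ContinuousAt g 1)
    (hk : ContinuousAt k 1)
    (hgeq : ∀ σ : ℝ, 1 < σ → heckeL f (σ + t * Complex.I) = ((σ : ℂ) - 1) * g σ)
    (hkeq : ∀ σ : ℝ, 1 < σ → heckeL (f * f) (σ + 2 * t * Complex.I) = k σ) : False := by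
  obtain ⟨G, hG, -, hG'⟩ := exists_heckeG (IsRayChar.one (K := K))
  set Φ : ℝ → ℂ := fun σ => G σ ^ 3 * g σ ^ 4 * k σ with hΦ
  have hΦ1 : ContinuousAt Φ 1 :=
    ((((hG.continuous.comp Complex.continuous_ofReal).continuousAt).pow 3).mul (hg.pow 4)).mul hk
  have hlim : Tendsto (fun σ : ℝ => ‖((σ : ℂ) - 1) * Φ σ‖) (𝓝[>] 1) (𝓝 0) := by
    have h : Tendsto (fun σ : ℝ => ‖((σ : ℂ) - 1) * Φ σ‖) (𝓝 1)
        (𝓝 ‖(((1 : ℝ) : ℂ) - 1) * Φ 1‖) :=
      (((Complex.continuous_ofReal.continuousAt (x := 1)).sub continuousAt_const).mul hΦ1).norm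
    simpa using h.mono_left nhdsWithin_le_nhds
  have hge : ∀ᶠ σ : ℝ in 𝓝[>] 1, (1 : ℝ) ≤ ‖((σ : ℂ) - 1) * Φ σ‖ := by
    filter_upwards [self_mem_nhdsWithin] with σ hσ
    have hσ' : (1 : ℝ) < σ := hσ
    refine (h.one_le_norm_product hσ' t).trans_eq (congrArg norm ?_)
    have h₀ : 1 < ((σ : ℂ)).re := by simpa using hσ'
    have k₀ := sub_one_ne_zero h₀
    rw [hgeq σ hσ', hkeq σ hσ', hΦ]
    simp only [← hG' _ h₀]
    ring
  obtain ⟨σ, hσ1, hσ2⟩ := (hge.and (hlim.eventually (gt_mem_nhds zero_lt_one))).exists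
  linarith

theorem IsRayChar.ne_zero_of_ne_one (h : IsRayChar 𝔪 f) {G : ℂ → ℂ} (hG : Differentiable ℂ G)
    (hG' : ∀ s : ℂ, 1 < s.re → (s - 1) * heckeL f s = G s) {s : ℂ} (hs : 1 ≤ s.re)
    (hs1 : s ≠ 1) : G s ≠ 0 := by
  rcases hs.lt_or_eq with hlt | heq
  · rw [← hG' s hlt]
    exact mul_ne_zero (sub_one_ne_zero hlt) (h.heckeL_ne_zero hlt)
  intro h0
  set t : ℝ := s.im
  have hst : s = 1 + t * Complex.I := Complex.ext (by simp [← heq]) (by simp [t])
  have ht : t ≠ 0 := fun h => hs1 (by rw [hst, h]; simp)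
  obtain ⟨G₂, hG₂, -, hG₂'⟩ := exists_heckeG (h.mul h)
  have e : ∀ u : ℝ, u ≠ 0 → ((1 : ℝ) : ℂ) - 1 + u * Complex.I ≠ 0 := fun u hu h =>
    hu (by simpa using congrArg Complex.im h)
  have e₂ : ((1 : ℝ) : ℂ) - 1 + 2 * t * Complex.I ≠ 0 := by
    have h := e (2 * t) (mul_ne_zero two_ne_zero ht)
    push_cast at h
    simpa using h
  have hline : ∀ u : ℂ, Continuous fun σ : ℝ => (σ : ℂ) + u := fun u =>
    Complex.continuous_ofReal.add continuous_const
  have hden : ∀ u : ℂ, Continuous fun σ : ℝ => (σ : ℂ) - 1 + u := fun u =>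
    (Complex.continuous_ofReal.sub continuous_const).add continuous_const
  refine h.false_of_zero t
    (g := fun σ => dslope G s (σ + t * Complex.I) / ((σ : ℂ) - 1 + t * Complex.I))
    (k := fun σ => G₂ (σ + 2 * t * Complex.I) / ((σ : ℂ) - 1 + 2 * t * Complex.I))
    (((differentiable_dslope hG s).continuous.comp (hline _)).continuousAt.div
      (hden _).continuousAt (e t ht))
    ((hG₂.continuous.comp (hline _)).continuousAt.div (hden _).continuousAt e₂)
    (fun σ hσ => ?_) fun σ hσ => ?_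
  · have h₁ : 1 < ((σ : ℂ) + t * Complex.I).re := by simpa using hσ
    have k₁ := sub_one_ne_zero h₁
    rw [add_sub_right_comm] at k₁
    have hgσ : G (σ + t * Complex.I) =
        ((σ : ℂ) - 1) * dslope G s (σ + t * Complex.I) := by
      have h := sub_smul_dslope G s ((σ : ℂ) + t * Complex.I)
      rw [h0, sub_zero, smul_eq_mul] at h
      rw [← h]
      congr 1
      rw [hst]; ring
    rw [← mul_div_assoc, ← hgσ, ← hG' _ h₁, add_sub_right_comm, mul_div_cancel_left₀ _ k₁]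
  · have h₂ : 1 < ((σ : ℂ) + 2 * t * Complex.I).re := by simpa using hσ
    have k₂ := sub_one_ne_zero h₂
    rw [add_sub_right_comm] at k₂
    rw [← hG₂' _ h₂, add_sub_right_comm, mul_div_cancel_left₀ _ k₂]

/-- **`L(1, f) ≠ 0` when `f²` is trivial.** -/
theorem IsRayChar.one_ne_zero_of_sq (h : IsRayChar 𝔪 f) (hf2 : ¬IsNontrivial (f * f))
    {E : ℂ → ℂ} (hE : Differentiable ℂ E) (hE' : ∀ s : ℂ, 1 < s.re → heckeL f s = E s) :
    E 1 ≠ 0 := by
  intro h1
  have hone : IsRayChar (⊤ : Ideal (𝓞 K)) (1 : Ideal (𝓞 K) →* ℂ) := IsRayChar.one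
  obtain ⟨G, hG, -, hG'⟩ := exists_heckeG hone
  obtain ⟨v₀, hv₀⟩ := h.exists_prime_ne_zero
  set F : ℂ → ℂ := fun s =>
    G s * dslope E 1 s * ((1 - primePow s v₀) * (1 + primePow s v₀)) with hF'
  have hn0 : ((absNorm v₀.asIdeal : ℕ) : ℂ) ≠ 0 :=
    Nat.cast_ne_zero.mpr (zero_lt_two.trans_le (two_le_absNorm v₀)).ne'
  have hp : Differentiable ℂ fun s => primePow s v₀ :=
    differentiable_neg.const_cpow (Or.inl hn0)
  have hF : Differentiable ℂ F :=
    (hG.mul (differentiable_dslope hE 1)).mul ((hp.const_sub 1).mul (hp.const_add 1))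
  have hval : ∀ v : HeightOneSpectrum (𝓞 K),
      f v.asIdeal = 0 ∨ f v.asIdeal = 1 ∨ f v.asIdeal = -1 := fun v => by
    by_cases h0 : f v.asIdeal = 0
    · exact Or.inl h0
    · refine Or.inr (mul_self_eq_one_iff.mp ?_)
      rw [← MonoidHom.mul_apply]
      exact eq_one_of_not_isNontrivial hf2 v.ne_bot (by simp [MonoidHom.mul_apply, h0])
  -- the logarithm of `F`
  set c : HeightOneSpectrum (𝓞 K) × ℕ → ℂ := fun p =>
    (1 + f p.1.asIdeal ^ (p.2 + 1) -
      if p.1 = v₀ then 1 + (-1 : ℂ) ^ (p.2 + 1) else 0) / ((p.2 + 1 : ℕ) : ℂ) with hc'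
  have hc0 : ∀ p, 0 ≤ c p := fun p => by
    simp only [hc']
    refine mul_nonneg ?_ ?_
    · by_cases hv : p.1 = v₀
      · rw [if_pos hv]
        rcases hval p.1 with h' | h' | h'
        · exact absurd h' (hv ▸ hv₀)
        all_goals rcases neg_one_pow_eq_or ℂ (p.2 + 1) with h'' | h'' <;>
          simp [h', h'', Complex.nonneg_iff]
      · rw [if_neg hv, sub_zero]
        rcases hval p.1 with h' | h' | h'
        · simp [h']
        all_goals rcases neg_one_pow_eq_or ℂ (p.2 + 1) with h'' | h'' <;>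
          simp [h', h'', Complex.nonneg_iff]
    · rw [← Complex.ofReal_natCast, ← Complex.ofReal_inv, Complex.zero_le_real]
      positivity
  have hB : ∀ p, ‖c p‖ ≤ 4 / Real.log 2 * Real.log (absNorm p.1.asIdeal) := fun p => by
    have h2 : Real.log 2 ≤ Real.log (absNorm p.1.asIdeal) :=
      Real.log_le_log two_pos (by exact_mod_cast two_le_absNorm p.1)
    refine le_trans ?_ (le_trans (le_of_eq (div_mul_cancel₀ 4 (Real.log_pos one_lt_two).ne').symm)
      (mul_le_mul_of_nonneg_left h2 (by positivity)))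
    rw [hc', norm_div, Complex.norm_natCast]
    refine (div_le_self (norm_nonneg _) (by exact_mod_cast Nat.succ_pos p.2)).trans ?_
    refine (norm_sub_le _ _).trans ?_
    have h3 : ‖1 + f p.1.asIdeal ^ (p.2 + 1)‖ ≤ 2 := by
      refine (norm_add_le _ _).trans ?_
      rw [norm_pow, norm_one]
      linarith [pow_le_one₀ (n := p.2 + 1) (norm_nonneg _) (h.norm_le p.1.ne_bot)]
    have h4 : ‖if p.1 = v₀ then 1 + (-1 : ℂ) ^ (p.2 + 1) else 0‖ ≤ 2 := by
      split_ifs
      · refine (norm_add_le _ _).trans ?_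
        rw [norm_pow, norm_neg, norm_one, one_pow]
        norm_num
      · simp
    linarith
  set b : ℕ → ℂ := fun n => ∑' p : PowFiber K n, c p.1
  have hb0 : 0 ≤ b := fun n => tsum_nonneg fun p => hc0 p.1
  have hB0 : (0 : ℝ) ≤ 4 / Real.log 2 := by positivity
  have heq : ∀ s : ℂ, 1 < s.re → F s = Complex.exp (LSeries b s) := fun s hs => by
    obtain ⟨-, hval'⟩ := LSeries_fiber hB0 hB hs
    have hsum := summable_mul_pow hB0 hB hs
    set z := primePow s v₀
    have hz : ‖z‖ ≤ 1 / 2 := norm_primePow_le_half hs.le v₀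
    have hz' : ‖-z‖ ≤ 1 / 2 := by rwa [norm_neg]
    have hfib : ∀ v : HeightOneSpectrum (𝓞 K), HasSum
        (fun k => c (v, k) * primePow s v ^ (k + 1))
        (-Complex.log (1 - fPow (1 : Ideal (𝓞 K) →* ℂ) s v) + -Complex.log (1 - fPow f s v) -
          if v = v₀ then -Complex.log (1 - z) + -Complex.log (1 - -z) else 0) := fun v => by
      have e1 := tsum_pow_div ((hone.norm_fPow_le_half hs.le v).trans_lt (by norm_num))
      have e2 := tsum_pow_div ((h.norm_fPow_le_half hs.le v).trans_lt (by norm_num))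
      by_cases hv : v = v₀
      · have e3 := tsum_pow_div (hz.trans_lt (by norm_num : (1 : ℝ) / 2 < 1))
        have e4 := tsum_pow_div (hz'.trans_lt (by norm_num : (1 : ℝ) / 2 < 1))
        rw [if_pos hv]
        refine ((e1.add e2).sub (e3.add e4)).congr_fun fun k => ?_
        simp only [hc', if_pos hv, fPow, mul_pow, MonoidHom.one_apply, one_pow,
          show z = primePow s v by rw [hv]]
        rw [neg_pow (primePow s v) (k + 1)]
        ring
      · rw [if_neg hv, sub_zero]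
        refine (e1.add e2).congr_fun fun k => ?_
        simp only [hc', if_neg hv, fPow, mul_pow, MonoidHom.one_apply, one_pow]
        ring
    have h2 : HasSum (fun v : HeightOneSpectrum (𝓞 K) =>
        -Complex.log (1 - fPow (1 : Ideal (𝓞 K) →* ℂ) s v) + -Complex.log (1 - fPow f s v) -
          if v = v₀ then -Complex.log (1 - z) + -Complex.log (1 - -z) else 0)
        (logF (1 : Ideal (𝓞 K) →* ℂ) s + logF f s -
          (-Complex.log (1 - z) + -Complex.log (1 - -z))) :=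
      (((hone.summable_logTerm hs).hasSum.add (h.summable_logTerm hs).hasSum)).sub
        (hasSum_ite_eq v₀ _)
    rw [show LSeries b s = _ from hval', (hsum.hasSum.prod_fiberwise hfib).unique h2,
      Complex.exp_sub, Complex.exp_add, Complex.exp_add, hone.exp_logF hs, h.exp_logF hs,
      Complex.exp_neg, Complex.exp_neg,
      Complex.exp_log (Complex.slitPlane_ne_zero (one_sub_mem_slitPlane hz)),
      Complex.exp_log (Complex.slitPlane_ne_zero (one_sub_mem_slitPlane hz'))]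
    have h3 := sub_smul_dslope E 1 s
    rw [h1, sub_zero, smul_eq_mul, ← hE' s hs] at h3
    simp only [hF']
    rw [← hG' s hs, ← h3]
    field_simp
    ring
  have hab : LSeries.abscissaOfAbsConv b < ((2 : ℝ) : EReal) := by
    refine lt_of_le_of_lt ((LSeries_fiber hB0 hB (s := ((3 / 2 : ℝ) : ℂ))
      (by rw [Complex.ofReal_re]; norm_num)).1.abscissaOfAbsConv_le) ?_
    rw [Complex.ofReal_re]
    exact_mod_cast (by norm_num : (3 / 2 : ℝ) < 2)
  have hev : F =ᶠ[𝓝 ((2 : ℝ) : ℂ)] fun z => Complex.exp (LSeries b z) := by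
    filter_upwards [(isOpen_lt continuous_const Complex.continuous_re).mem_nhds
      (show (1 : ℝ) < ((2 : ℝ) : ℂ).re by rw [Complex.ofReal_re]; norm_num)] with z hz
    exact heq z hz
  have hle := hF.apply_le_of_iteratedDeriv_alternating (c := ((2 : ℝ) : ℂ))
    (fun n _ => hev.iteratedDeriv_eq n ▸ alternating_exp hb0 hab n)
    (z := 0) (by rw [← Complex.ofReal_zero, Complex.real_le_real]; norm_num)
  have h0 : F 0 = 0 := by simp [hF', primePow]
  rw [h0, heq _ (by rw [Complex.ofReal_re]; norm_num)] at hle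
  have h2 := alternating_exp hb0 hab 0
  simp only [pow_zero, one_mul, iteratedDeriv_zero] at h2
  exact Complex.exp_ne_zero _ (le_antisymm hle h2)

/-- **A nontrivial character: no zeros on `1 ≤ re s`.** -/
theorem IsRayChar.heckeE_ne_zero (h : IsRayChar 𝔪 f) {E : ℂ → ℂ}
    (hE : Differentiable ℂ E) (hE' : ∀ s : ℂ, 1 < s.re → heckeL f s = E s) {s : ℂ}
    (hs : 1 ≤ s.re) : E s ≠ 0 := by
  rcases eq_or_ne s 1 with rfl | hs1
  · by_cases h2 : IsNontrivial (f * f)
    · intro h0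
      obtain ⟨E₂, hE₂, hE₂'⟩ := exists_heckeE (h.mul h) h2
      refine h.false_of_zero 0 (g := fun σ => dslope E 1 σ) (k := fun σ => E₂ σ)
        ((differentiable_dslope hE 1).continuous.comp Complex.continuous_ofReal).continuousAt
        (hE₂.continuous.comp Complex.continuous_ofReal).continuousAt (fun σ hσ => ?_) fun σ hσ => ?_
      · have h := sub_smul_dslope E 1 (σ : ℂ)
        rw [h0, sub_zero, smul_eq_mul, ← hE' _ (by simpa using hσ)] at h
        simpa using h.symm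
      · simpa using hE₂' σ (by simpa using hσ)
    · exact h.one_ne_zero_of_sq h2 hE hE'
  · have h := h.ne_zero_of_ne_one (G := fun s => (s - 1) * E s)
      ((differentiable_id.sub_const 1).mul hE) (fun z hz => by rw [hE' z hz]) hs hs1
    exact fun h0 => h (by rw [h0, mul_zero])

/-- **A trivial character: no zeros on `1 ≤ re s`.** -/
theorem IsRayChar.heckeG_ne_zero (h : IsRayChar 𝔪 f) (ht : ¬IsNontrivial f) {G : ℂ → ℂ}
    (hG : Differentiable ℂ G) (hG' : ∀ s : ℂ, 1 < s.re → (s - 1) * heckeL f s = G s) {s : ℂ}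
    (hs : 1 ≤ s.re) : G s ≠ 0 := by
  rcases eq_or_ne s 1 with rfl | hs1
  · exact residue_ne_zero_of_trivial h ht hG hG'
  · exact h.ne_zero_of_ne_one hG hG' hs hs1

end FA.Hecke

end
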