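import Fermat.Agent.NaturalChebotarev.Ray
import Fermat.Agent.PrimeIdealTheorem.Euler

/-!
# Continuation of Hecke L-series of finite order

For `J` prime to `𝔪` the weighted sum of `f((x)) N(x)^(-s)` over `J` is a finite combination of the
sums of the signed weights over cosets of `J 𝔪`, so `(s - 1)` times it is entire with value
`R / N(J)` at `1`; it is also a multiple of the series of the class of `J⁻¹`.  So the residues of
the classes are permuted up to `f(I)` by an ideal `I`, and their sum is `0` if some `f(I) ≠ 1`.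
-/

set_option autoImplicit false
set_option linter.unusedSectionVars false

noncomputable section

open NumberField NumberField.mixedEmbedding NumberField.InfinitePlace Module Filter Topology Ideal
open FA.Ext FA.PrimeIdeal FA.AbelianZeta
open scoped nonZeroDivisors Classical

namespace FA.Hecke

variable {K : Type*} [Field K] [NumberField K]

/-- `I ↦ f(I) N(I)^(-s)`. -/
def lHom (f : Ideal (𝓞 K) →* ℂ) (s : ℂ) : (Ideal (𝓞 K))⁰ →* ℂ :=
  f.comp (Submonoid.subtype _) * normPow s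

theorem lHom_apply (f : Ideal (𝓞 K) →* ℂ) (s : ℂ) (I : (Ideal (𝓞 K))⁰) :
    lHom f s I = f I.1 * normPow s I := rfl

/-- **The L-series.** -/
def heckeL (f : Ideal (𝓞 K) →* ℂ) (s : ℂ) : ℂ := ∑' I, lHom f s I

/-- The part of a class. -/
def classPart (f : Ideal (𝓞 K) →* ℂ) (C : ClassGroup (𝓞 K)) (s : ℂ) : ℂ :=
  ∑' I : {I : (Ideal (𝓞 K))⁰ // ClassGroup.mk0 I = C}, lHom f s I.1

/-- The weighted sum over an ideal. -/
def idealSum (f : Ideal (𝓞 K) →* ℂ) (J : Ideal (𝓞 K)) (s : ℂ) : ℂ :=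
  ∑' y : J, f (Ideal.span {(y : 𝓞 K)}) * lterm s (y : 𝓞 K)

variable {𝔪 : Ideal (𝓞 K)} {f : Ideal (𝓞 K) →* ℂ}

theorem IsRayChar.norm_lHom_le (h : IsRayChar 𝔪 f) (s : ℂ) (I : (Ideal (𝓞 K))⁰) :
    ‖lHom f s I‖ ≤ ‖normPow s I‖ := by
  rw [lHom_apply, norm_mul]
  exact mul_le_of_le_one_left (norm_nonneg _) (h.norm_le (nonZeroDivisors.coe_ne_zero I))

theorem IsRayChar.summable_lHom (h : IsRayChar 𝔪 f) {s : ℂ} (hs : 1 < s.re) :
    Summable fun I : (Ideal (𝓞 K))⁰ => ‖lHom f s I‖ :=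
  Summable.of_nonneg_of_le (fun _ => norm_nonneg _) (h.norm_lHom_le s)
    (summable_norm_normPow hs)

theorem heckeL_eq_sum (h : IsRayChar 𝔪 f) {s : ℂ} (hs : 1 < s.re) :
    heckeL f s = ∑ C : ClassGroup (𝓞 K), classPart f C s := by
  have h' : Summable fun c => lHom f s
      ((Equiv.sigmaFiberEquiv (ClassGroup.mk0 (R := 𝓞 K))) c) :=
    (Equiv.sigmaFiberEquiv _).summable_iff.mpr (h.summable_lHom hs).of_norm
  rw [heckeL, ← (Equiv.sigmaFiberEquiv (ClassGroup.mk0 (R := 𝓞 K))).tsum_eq, h'.tsum_sigma,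
    tsum_fintype]
  rfl

theorem IsRayChar.summable_idealTerm (h : IsRayChar 𝔪 f) {s : ℂ} (hs : 1 < s.re) :
    Summable fun x : 𝓞 K => f (Ideal.span {x}) * lterm s x := by
  refine Summable.of_norm_bounded (summable_lterm (K := K) hs).norm fun x => ?_
  rcases eq_or_ne x 0 with rfl | hx
  · simp [lterm_zero]
  · rw [norm_mul]
    exact mul_le_of_le_one_left (norm_nonneg _) (h.norm_le (by simpa using hx))

/-- **The sum over an ideal and the series of a class.** -/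
theorem idealSum_eq (h : IsRayChar 𝔪 f) {C : ClassGroup (𝓞 K)} {J : (Ideal (𝓞 K))⁰}
    (hJ : ClassGroup.mk0 J = C⁻¹) {s : ℂ} (hs : 1 < s.re) :
    idealSum f J.1 s = Units.torsionOrder K * lHom f s J * classPart f C s := by
  set S := {I : (Ideal (𝓞 K))⁰ // ClassGroup.mk0 I = C}
  have hp : ∀ I : S, ∃ g : 𝓞 K, g ≠ 0 ∧
      ((J * I.1 : (Ideal (𝓞 K))⁰) : Ideal (𝓞 K)) = Ideal.span {g} := by
    intro I
    have h1 : ClassGroup.mk0 (J * I.1) = 1 := by rw [map_mul, hJ, I.2, inv_mul_cancel]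
    obtain ⟨g, hg⟩ := (ClassGroup.mk0_eq_one_iff (SetLike.coe_mem (J * I.1))).mp h1
    exact ⟨g, fun h => nonZeroDivisors.coe_ne_zero (J * I.1) (hg.trans (by rw [h]; simp)), hg⟩
  choose g hg0 hg using hp
  have hgJ : ∀ I : S, g I ∈ J.1 := fun I => by
    have : g I ∈ ((J * I.1 : (Ideal (𝓞 K))⁰) : Ideal (𝓞 K)) := by
      rw [hg I]; exact Ideal.mem_span_singleton_self _
    rw [Submonoid.coe_mul] at this
    exact (Ideal.mul_le_inf this).1
  let e : S × (𝓞 K)ˣ → J.1 := fun Iu =>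
    ⟨(Iu.2 : 𝓞 K) * g Iu.1, J.1.mul_mem_left _ (hgJ Iu.1)⟩
  have he : Function.Injective e := by
    rintro ⟨I, u⟩ ⟨I', u'⟩ h'
    have h'' : (u : 𝓞 K) * g I = u' * g I' := congrArg Subtype.val h'
    obtain rfl : I = I' := by
      have h3 : ((J * I.1 : (Ideal (𝓞 K))⁰) : Ideal (𝓞 K)) = ↑(J * I'.1) := by
        rw [hg I, hg I', ← Ideal.span_singleton_mul_left_unit u.isUnit, h'',
          Ideal.span_singleton_mul_left_unit u'.isUnit]
      exact Subtype.ext (mul_left_cancel (Subtype.ext h3))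
    rw [mul_right_cancel₀ (hg0 I) h'' |> Units.ext]
  have hsupp : Function.support (fun x : J.1 => f (Ideal.span {(x : 𝓞 K)}) * lterm s (x : 𝓞 K)) ⊆
      Set.range e := by
    intro x hx
    have hx0 : (x : 𝓞 K) ≠ 0 := fun h => hx (by simp [h, lterm_zero])
    obtain ⟨I, hI⟩ := Ideal.dvd_iff_le.mpr ((Ideal.span_singleton_le_iff_mem _).mpr x.2)
    have hspan : Ideal.span {(x : 𝓞 K)} ≠ 0 := by simpa using hx0
    have hI0 : I ≠ 0 := fun h => hspan (by rw [hI, h, mul_zero])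
    let I' : (Ideal (𝓞 K))⁰ := ⟨I, mem_nonZeroDivisors_iff_ne_zero.mpr hI0⟩
    have hC : ClassGroup.mk0 I' = C := by
      have : ClassGroup.mk0 (J * I') = 1 :=
        (ClassGroup.mk0_eq_one_iff (SetLike.coe_mem (J * I'))).mpr ⟨(x : 𝓞 K), hI.symm⟩
      rw [map_mul, hJ, inv_mul_eq_one] at this
      exact this.symm
    obtain ⟨u, hu⟩ := Ideal.span_singleton_eq_span_singleton.mp
      ((hg ⟨I', hC⟩).symm.trans hI.symm)
    exact ⟨(⟨I', hC⟩, u), Subtype.ext (by simpa [e, mul_comm] using hu)⟩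
  have hsum : Summable fun Iu => f (Ideal.span {(e Iu : 𝓞 K)}) * lterm s (e Iu : 𝓞 K) :=
    ((h.summable_idealTerm hs).comp_injective Subtype.val_injective).comp_injective he
  have hterm : ∀ I : S, ∑' u : (𝓞 K)ˣ, f (Ideal.span {(e (I, u) : 𝓞 K)}) *
      lterm s (e (I, u) : 𝓞 K) = Units.torsionOrder K * lHom f s J * lHom f s I.1 := by
    intro I
    have hn : mixedEmbedding.norm (intEmb K (g I)) ≠ 0 := by
      rw [norm_intEmb, Nat.cast_ne_zero]
      exact (absNorm_span_pos (hg0 I)).ne'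
    have h1 : ∀ u : (𝓞 K)ˣ, f (Ideal.span {(e (I, u) : 𝓞 K)}) * lterm s (e (I, u) : 𝓞 K) =
        lHom f s (J * I.1) * (weightS (u • intEmb K (g I)) : ℂ) := by
      intro u
      show f (Ideal.span {(u : 𝓞 K) * g I}) * lterm s ((u : 𝓞 K) * g I) = _
      rw [lterm_eq, lHom_apply, show normPow s (J * I.1) =
          ((absNorm ((J * I.1 : (Ideal (𝓞 K))⁰) : Ideal (𝓞 K)) : ℕ) : ℂ) ^ (-s) from rfl,
        hg I, Ideal.span_singleton_mul_left_unit u.isUnit]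
      simp [intEmb, unitSMul_smul]
      ring
    simp only [h1]
    rw [tsum_mul_left, ← Complex.ofReal_tsum, tsum_weightS_unit_smul _ hn, map_mul]
    push_cast
    ring
  rw [idealSum, ← he.tsum_eq hsupp, hsum.tsum_prod, classPart]
  simp only [hterm]
  exact tsum_mul_left

/-- The value of `f` on the integers of given residue and signs. -/
def resVal (𝔪 : Ideal (𝓞 K)) (f : Ideal (𝓞 K) →* ℂ)
    (c : (𝓞 K ⧸ 𝔪) × ({w : InfinitePlace K // IsReal w} → Bool)) : ℂ :=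
  if h : ∃ x : 𝓞 K, x ≠ 0 ∧ Ideal.Quotient.mk 𝔪 x = c.1 ∧ sgn (intEmb K x) = c.2 then
    f (Ideal.span {h.choose}) else 0

theorem IsRayChar.resVal_eq (h : IsRayChar 𝔪 f) {x : 𝓞 K} (hx : x ≠ 0) :
    resVal 𝔪 f (Ideal.Quotient.mk 𝔪 x, sgn (intEmb K x)) = f (Ideal.span {x}) := by
  have hex : ∃ y : 𝓞 K, y ≠ 0 ∧ Ideal.Quotient.mk 𝔪 y = Ideal.Quotient.mk 𝔪 x ∧
      sgn (intEmb K y) = sgn (intEmb K x) := ⟨x, hx, rfl, rfl⟩
  rw [resVal, dif_pos hex]
  exact h.eq_of_congr hex.choose_spec.1 hx (Ideal.Quotient.eq.mp hex.choose_spec.2.1)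
    (mul_pos_of_sgn_eq hex.choose_spec.1 hx hex.choose_spec.2.2)

theorem IsRayChar.idealTerm_eq (h : IsRayChar 𝔪 f) (s : ℂ) (x : 𝓞 K) :
    f (Ideal.span {x}) * lterm s x =
      ∑ σ, resVal 𝔪 f (Ideal.Quotient.mk 𝔪 x, σ) * symTerm (signW σ) s (intEmb K x) := by
  simp only [symTerm, ← mul_assoc, ← Finset.sum_mul, sum_signW]
  rw [lterm, symTerm]
  rcases eq_or_ne x 0 with rfl | hx
  · simp [intEmb_zero, weightS_zero]
  · rw [h.resVal_eq hx, mul_assoc]

/-- **The sum over an ideal continues, with residue `R / N(J)`.** -/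
theorem exists_idealSum (h : IsRayChar 𝔪 f) : ∃ R : ℂ, ∀ J : (Ideal (𝓞 K))⁰, J.1 ⊔ 𝔪 = ⊤ →
    ∃ Φ : ℂ → ℂ, Differentiable ℂ Φ ∧ Φ 1 = R / (absNorm J.1 : ℂ) ∧
      ∀ s : ℂ, 1 < s.re → (s - 1) * idealSum f J.1 s = Φ s := by
  have : Finite (𝓞 K ⧸ 𝔪) := Ideal.finiteQuotientOfFreeOfNeBot 𝔪 h.ne_bot
  let _ : Fintype (𝓞 K ⧸ 𝔪) := Fintype.ofFinite _
  choose Z hZ hZ' using fun σ : {w : InfinitePlace K // IsReal w} → Bool =>
    exists_symZ (K := K) (isSymbol_signW σ)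
  refine ⟨(∑ t : 𝓞 K ⧸ 𝔪, ∑ σ, resVal 𝔪 f (t, σ) * Z σ 1) / (absNorm 𝔪 : ℂ), fun J hJ => ?_⟩
  -- representatives in `J`
  obtain ⟨j, hj, k, hk, hjk⟩ := Submodule.mem_sup.mp ((Ideal.eq_top_iff_one _).mp hJ)
  let r : (𝓞 K ⧸ 𝔪) → 𝓞 K := fun t => Quotient.out t * j
  have hmk : ∀ t, Ideal.Quotient.mk 𝔪 (r t) = t := fun t => by
    refine (Ideal.Quotient.eq.mpr ?_).trans (Quotient.out_eq t)
    have : r t - Quotient.out t = -(Quotient.out t * k) := by
      simp only [r]; linear_combination (Quotient.out t : 𝓞 K) * hjk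
    rw [this]
    exact 𝔪.neg_mem (𝔪.mul_mem_left _ hk)
  have hJ'0 : J.1 * 𝔪 ∈ (Ideal (𝓞 K))⁰ :=
    mem_nonZeroDivisors_iff_ne_zero.mpr (mul_ne_zero (nonZeroDivisors.coe_ne_zero J) h.ne_bot)
  set J' : Ideal (𝓞 K) := J.1 * 𝔪 with hJ'def
  have hJ' : J' = J.1 ⊓ 𝔪 := Ideal.mul_eq_inf_of_coprime hJ
  choose H hH hH' using fun (t : 𝓞 K ⧸ 𝔪) (σ : {w : InfinitePlace K // IsReal w} → Bool) =>
    exists_coset_symbol (isSymbol_signW σ) J' (nonZeroDivisors.coe_ne_zero ⟨J', hJ'0⟩) (r t)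
  choose H' hH₂ hH₂' using fun σ : {w : InfinitePlace K // IsReal w} → Bool =>
    exists_ideal_symbol (isSymbol_signW σ) ⟨J', hJ'0⟩
  set N : ℂ := ((absNorm J' : ℕ) : ℂ) with hN
  have hN0 : N ≠ 0 := Nat.cast_ne_zero.mpr (absNorm_ne_zero_of_nonZeroDivisors ⟨J', hJ'0⟩)
  refine ⟨fun s => ∑ t, ∑ σ, resVal 𝔪 f (t, σ) *
      ((Z σ s - (s - 1) * H' σ s) / N + (s - 1) * H t σ s),
    Differentiable.fun_sum fun t _ => Differentiable.fun_sum fun σ _ =>
      ((((hZ σ).sub ((differentiable_id.sub_const 1).mul (hH₂ σ))).div_const N).add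
        ((differentiable_id.sub_const 1).mul (hH t σ))).const_mul _, ?_, fun s hs => ?_⟩
  · simp only [sub_self, zero_mul, sub_zero, add_zero, hN, hJ'def, map_mul, Nat.cast_mul,
      Finset.sum_div, mul_div_assoc]
    refine Finset.sum_congr rfl fun t _ => Finset.sum_congr rfl fun σ _ => ?_
    ring
  let e : (𝓞 K ⧸ 𝔪) × J' → J.1 := fun ty => ⟨r ty.1 + (ty.2 : 𝓞 K),
    J.1.add_mem (J.1.mul_mem_left _ hj) ((hJ'.le.trans inf_le_left) ty.2.2)⟩
  have hy : ∀ z : J', Ideal.Quotient.mk 𝔪 (z : 𝓞 K) = 0 := fun z =>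
    Ideal.Quotient.eq_zero_iff_mem.mpr ((hJ'.le.trans inf_le_right) z.2)
  have he : Function.Bijective e := by
    constructor
    · rintro ⟨t, y⟩ ⟨t', y'⟩ h'
      have h'' : r t + (y : 𝓞 K) = r t' + (y' : 𝓞 K) := congrArg Subtype.val h'
      obtain rfl : t = t' := by
        have := congrArg (Ideal.Quotient.mk 𝔪) h''
        simpa [hmk, hy] using this
      simpa using h''
    · intro x
      refine ⟨⟨Ideal.Quotient.mk 𝔪 x, ⟨(x : 𝓞 K) - r (Ideal.Quotient.mk 𝔪 x), ?_⟩⟩, ?_⟩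
      · rw [hJ']
        refine ⟨J.1.sub_mem x.2 (J.1.mul_mem_left _ hj), ?_⟩
        show _ ∈ 𝔪
        rw [← Ideal.Quotient.eq_zero_iff_mem, map_sub, hmk, sub_self]
      · exact Subtype.ext (by simp [e])
  have hcoset : ∀ (t : 𝓞 K ⧸ 𝔪) (σ : {w : InfinitePlace K // IsReal w} → Bool),
      Summable fun y : J' => symTerm (signW σ) s (intEmb K (r t + (y : 𝓞 K))) := fun t σ =>
    (summable_symTerm (isSymbol_signW σ) hs).comp_injective
      ((add_right_injective (r t)).comp Subtype.val_injective)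
  have hsum : Summable fun ty => f (Ideal.span {(e ty : 𝓞 K)}) * lterm s (e ty : 𝓞 K) :=
    ((h.summable_idealTerm hs).comp_injective Subtype.val_injective).comp_injective he.1
  rw [idealSum, ← (Equiv.ofBijective e he).tsum_eq]
  simp only [Equiv.ofBijective_apply]
  rw [hsum.tsum_prod, tsum_fintype, Finset.mul_sum]
  refine Finset.sum_congr rfl fun t _ => ?_
  have hrow : ∀ y : J', f (Ideal.span {(e (t, y) : 𝓞 K)}) * lterm s (e (t, y) : 𝓞 K) =
      ∑ σ, resVal 𝔪 f (t, σ) * symTerm (signW σ) s (intEmb K (r t + (y : 𝓞 K))) := fun y => by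
    have ht : Ideal.Quotient.mk 𝔪 (e (t, y) : 𝓞 K) = t := by
      show Ideal.Quotient.mk 𝔪 (r t + (y : 𝓞 K)) = t
      rw [map_add, hy, add_zero, hmk]
    rw [h.idealTerm_eq, ht]
  simp only [hrow]
  rw [Summable.tsum_finsetSum fun σ _ => (hcoset t σ).mul_left _, Finset.mul_sum]
  refine Finset.sum_congr rfl fun σ _ => ?_
  rw [tsum_mul_left, ← hZ' σ s hs, ← hH₂' σ s hs, ← hH' t σ s hs]
  show _ = resVal 𝔪 f (t, σ) * (((s - 1) * symZ (signW σ) s -
    (s - 1) * (symZ (signW σ) s - N * latSum J' (symTerm (signW σ)) s)) / N + _)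
  field_simp
  ring

/-- **Continuation: at most a simple pole at `1`, none for a nontrivial character.** -/
theorem exists_heckeG (h : IsRayChar 𝔪 f) : ∃ G : ℂ → ℂ, Differentiable ℂ G ∧
    (IsNontrivial f → G 1 = 0) ∧ ∀ s : ℂ, 1 < s.re → (s - 1) * heckeL f s = G s := by
  obtain ⟨R, hR⟩ := exists_idealSum h
  set τ : ℂ := (Units.torsionOrder K : ℂ) with hτ
  have hτ0 : τ ≠ 0 := Nat.cast_ne_zero.mpr (Units.torsionOrder_pos K).ne'
  -- the continuation of a class, from an ideal in the inverse class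
  have key : ∀ (C : ClassGroup (𝓞 K)) (J : (Ideal (𝓞 K))⁰), ClassGroup.mk0 J = C⁻¹ →
      J.1 ⊔ 𝔪 = ⊤ → ∃ G : ℂ → ℂ, Differentiable ℂ G ∧ G 1 = R / (τ * f J.1) ∧
        ∀ s : ℂ, 1 < s.re → (s - 1) * classPart f C s = G s := by
    intro C J hJC hJ
    obtain ⟨Φ, hΦ, hΦ1, hΦ'⟩ := hR J hJ
    have hN : ((absNorm J.1 : ℕ) : ℂ) ≠ 0 :=
      Nat.cast_ne_zero.mpr (absNorm_ne_zero_of_nonZeroDivisors J)
    have hfJ : f J.1 ≠ 0 := (h.ne_zero_iff _ (nonZeroDivisors.coe_ne_zero J)).mpr hJ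
    refine ⟨fun s => Φ s * ((absNorm J.1 : ℕ) : ℂ) ^ s / (τ * f J.1),
      (hΦ.mul (differentiable_id.const_cpow (Or.inl hN))).div_const _, ?_, fun s hs => ?_⟩
    · simp only [hΦ1, Complex.cpow_one]
      rw [div_mul_cancel₀ R hN]
    · show _ = Φ s * _ / _
      rw [← hΦ' s hs, idealSum_eq h hJC hs, lHom_apply, ← hτ,
        show normPow s J = ((absNorm J.1 : ℕ) : ℂ) ^ (-s) from rfl, Complex.cpow_neg]
      field_simp [Complex.cpow_ne_zero_iff.mpr (Or.inl hN)]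
  choose J hJC hJ using exists_coprime_class h.ne_bot
  choose G hG hG1 hG' using fun C => key C (J C) (hJC C) (hJ C)
  refine ⟨fun s => ∑ C, G C s, Differentiable.fun_sum fun C _ => hG C, fun hnt => ?_,
    fun s hs => ?_⟩
  · obtain ⟨I, hI, hI0, hI1⟩ := hnt
    set I₀ : (Ideal (𝓞 K))⁰ := ⟨I, mem_nonZeroDivisors_iff_ne_zero.mpr hI⟩
    have hshift : ∀ C, G (C * (ClassGroup.mk0 I₀)⁻¹) 1 = G C 1 / f I := fun C => by
      obtain ⟨G', hG₂, hG₂1, hG₂'⟩ := key (C * (ClassGroup.mk0 I₀)⁻¹) (J C * I₀)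
        (by rw [map_mul, hJC, mul_inv, inv_inv])
        (mul_sup_eq_top.mpr ⟨hJ C, (h.ne_zero_iff I hI).mp hI0⟩)
      rw [show G (C * (ClassGroup.mk0 I₀)⁻¹) = G' from eq_of_eq_halfPlane (hG _) hG₂ fun s hs =>
          (hG' _ s hs).symm.trans (hG₂' s hs),
        hG₂1, hG1, Submonoid.coe_mul, map_mul, show (I₀ : Ideal (𝓞 K)) = I from rfl]
      field_simp
    have hsum : ∑ C, G C 1 = (∑ C, G C 1) / f I := by
      rw [Finset.sum_div]
      exact (Fintype.sum_equiv (Equiv.mulRight (ClassGroup.mk0 I₀)⁻¹) _ _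
        fun C => (hshift C).symm).symm
    rw [eq_div_iff hI0] at hsum
    exact (mul_eq_zero.mp (show (∑ C, G C 1) * (f I - 1) = 0 by
      rw [mul_sub, mul_one, hsum, sub_self])).resolve_right (sub_ne_zero.mpr hI1)
  · rw [heckeL_eq_sum h hs, Finset.mul_sum]
    exact Finset.sum_congr rfl fun C _ => hG' C s hs

/-- **For a nontrivial character it is entire.** -/
theorem exists_heckeE (h : IsRayChar 𝔪 f) (hnt : IsNontrivial f) :
    ∃ E : ℂ → ℂ, Differentiable ℂ E ∧ ∀ s : ℂ, 1 < s.re → heckeL f s = E s := by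
  obtain ⟨G, hG, h1, hG'⟩ := exists_heckeG h
  refine ⟨dslope G 1, differentiable_dslope hG 1, fun s hs => ?_⟩
  have h2 := sub_smul_dslope G 1 s
  rw [h1 hnt, sub_zero, ← hG' s hs, smul_eq_mul] at h2
  exact (mul_left_cancel₀ (sub_one_ne_zero hs) h2).symm

end FA.Hecke

end
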