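import Fermat.Agent.NaturalChebotarev.Pair
import Fermat.Agent.Chebotarev.Density

/-!
# Natural density of the primes with given Frobenius element, from below

For a homomorphism of the absolute Galois group onto a finite group `G` with open kernel and a
subset `X` stable under conjugation, at least `(|X| / |G| - δ) x / log x` primes up to `x` have all
their Frobenius elements in `X`: the sum of the counts of the pairs `(σ, a)`.
-/

set_option autoImplicit false
set_option linter.style.haveILetI false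

noncomputable section

open NumberField IntermediateField IsDedekindDomain Filter Topology FA.Density
open FA.Weight1 (PmUnits pmOne cycPm cycM InClass hits)
open scoped Classical

namespace FA.NaturalChebotarev

local notation "Qb" => AlgebraicClosure ℚ
local notation "GQ" => AlgebraicClosure ℚ ≃ₐ[ℚ] AlgebraicClosure ℚ

/-- The lower bound. -/
theorem exists_natural_lower {G : Type} [Group G] [Fintype G] (π : GQ →* G)
    (hπ : Function.Surjective π) (hker : IsOpen (π.ker : Set GQ)) {X : Set G}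
    (hX : ∀ g ∈ X, ∀ x, x * g * x⁻¹ ∈ X) {δ : ℝ} (hδ : 0 < δ) :
    ∀ᶠ x : ℝ in atTop, ∃ T : Finset ℕ,
      (∀ p ∈ T, p ≤ ⌊x⌋₊ ∧ p.Prime ∧ ∀ A : ValuationSubring Qb, A.LiesOverPrime p →
        ∀ σ : GQ, A.IsFrobeniusAt σ p → π σ ∈ X) ∧
      (Nat.card X : ℝ) / Fintype.card G - δ ≤ Real.log x / x * T.card := by
  set n := Fintype.card G with hn
  have hn0 : 0 < n := Fintype.card_pos
  obtain ⟨k, hk⟩ := pow_unbounded_of_one_lt ((n : ℝ) / (δ / 2)) one_lt_two
  set k' := k + 1
  obtain ⟨m, hm, hm2, hdiv, hsurj⟩ := FA.Weight1.exists_level π hπ (c := n ^ k') (pow_pos hn0 _)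
  let _ : Fintype (PmUnits m) := Fintype.ofFinite _
  rw [Nat.card_eq_fintype_card] at hdiv
  have : IsCyclic (PmUnits m) :=
    isCyclic_of_surjective (QuotientGroup.mk' (pmOne m)) (QuotientGroup.mk'_surjective _)
  -- the field
  set θ := π.prod (cycPm m) with hθ
  set N := θ.ker
  have hNo : IsOpen (N : Set GQ) := by
    have : Fact (1 < m) := ⟨hm.1.one_lt⟩
    obtain ⟨L, hL, hLc⟩ := FA.Weight1.exists_field_cycM m
    refine Subgroup.isOpen_mono (H₁ := π.ker ⊓ L.fixingSubgroup) (fun g hg => ?_)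
      (hker.inter (IntermediateField.fixingSubgroup_isOpen L))
    obtain ⟨h1, h2⟩ := hg
    rw [MonoidHom.mem_ker]
    refine Prod.ext h1 ?_
    show QuotientGroup.mk' (pmOne m) (cycM m g) = 1
    rw [hLc g ((IntermediateField.mem_fixingSubgroup_iff L g).mp h2), map_one]
  let F : IntermediateField ℚ Qb := IntermediateField.fixedField N
  have hFN : F.fixingSubgroup = N :=
    InfiniteGalois.fixingSubgroup_fixedField ⟨N, Subgroup.isClosed_of_isOpen N hNo⟩
  have hFnorm : F.fixingSubgroup.Normal := hFN.symm ▸ MonoidHom.normal_ker θ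
  have hFgal : IsGalois ℚ F := (InfiniteGalois.normal_iff_isGalois F).mp hFnorm
  have hFfin : FiniteDimensional ℚ F :=
    (InfiniteGalois.isOpen_iff_finite F).mp (by rw [hFN]; exact hNo)
  have : NumberField F := { }
  let res : GQ →* (F ≃ₐ[ℚ] F) := AlgEquiv.restrictNormalHom F
  have hres : res.ker = N := (IntermediateField.restrictNormalHom_ker F).trans hFN
  have hres_surj : Function.Surjective res :=
    AlgEquiv.restrictNormalHom_surjective (F := ℚ) (K₁ := F) Qb
  let φ : (F ≃ₐ[ℚ] F) →* G × PmUnits m := res.liftOfSurjective hres_surj ⟨θ, hres.le⟩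
  have hφ : ∀ g : GQ, φ (res g) = θ g :=
    MonoidHom.liftOfRightInverse_comp_apply _ _ _ ⟨θ, hres.le⟩
  have hφb : Function.Bijective φ := by
    refine ⟨(injective_iff_map_eq_one φ).mpr fun z hz => ?_, fun p => ?_⟩
    · obtain ⟨g, rfl⟩ := hres_surj z
      rw [hφ] at hz
      rw [← MonoidHom.mem_ker, hres]
      exact hz
    · obtain ⟨g, rfl⟩ := hsurj p
      exact ⟨res g, hφ g⟩
  let e : (F ≃ₐ[ℚ] F) ≃* G × PmUnits m := MulEquiv.ofBijective φ hφb
  -- the Frobenius system
  have hex : ∀ q : ℕ, ∃ A : ValuationSubring Qb, ∃ σ : GQ, q.Prime →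
      A.LiesOverPrime q ∧ A.IsFrobeniusAt σ q := fun q => by
    by_cases hq : q.Prime
    · obtain ⟨A, hA⟩ := FA.Deform.exists_liesOverPrime hq
      obtain ⟨σ, hσ⟩ := FA.Deform.exists_isFrobeniusAt hq hA
      exact ⟨A, σ, fun _ => ⟨hA, hσ⟩⟩
    · exact ⟨⊤, 1, fun h => absurd h hq⟩
  choose A₁ σ₁ hAσ using hex
  set 𝔉₀ := frobSystem F A₁ σ₁ hAσ
  let 𝔉 : FrobSystem F :=
    { frob := 𝔉₀.frob
      excluded := 𝔉₀.excluded ∪ {m}
      spec := fun q hq hex => 𝔉₀.spec q hq fun h => hex (Finset.mem_union_left _ h) }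
  have hgood : ∀ q, 𝔉.Good q → q.Prime ∧ q ∉ 𝔉₀.excluded ∧ q ≠ m := fun q hq => by
    refine ⟨hq.1, ?_⟩
    have := hq.2
    simp [𝔉, not_or] at this
    tauto
  have hefrob : ∀ q, e (𝔉.frob q) = θ (σ₁ q) := fun q => hφ (σ₁ q)
  have hq : ∀ q, 𝔉.Good q → ∀ u, InClass m u q ↔ (e (𝔉.frob q)).2 = u := by
    intro q hg u
    obtain ⟨hqp, -, hqm⟩ := hgood q hg
    obtain ⟨hA, hσ⟩ := hAσ q hqp
    have hc := FA.Weight1.cycM_frobenius m hqp
      (fun h => hqm ((Nat.prime_dvd_prime_iff_eq hqp hm.1).mp h)) hA hσ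
    rw [hefrob]
    show InClass m u q ↔ QuotientGroup.mk' (pmOne m) (cycM m (σ₁ q)) = u
    constructor
    · rintro ⟨w, hw, rfl⟩
      rw [show cycM m (σ₁ q) = w from Units.ext (hc.trans hw.symm)]
    · exact fun h => ⟨_, hc, h⟩
  -- the pairs
  set Agood := Finset.univ.filter fun a : PmUnits m => n ∣ orderOf a
  set idx := X.toFinset ×ˢ Agood
  set nU : ℝ := (Fintype.card (PmUnits m) : ℝ) with hnU
  have hnU0 : 0 < nU := Nat.cast_pos.mpr Fintype.card_pos
  set S : ℝ → Finset ℕ := fun x => (Finset.range (⌊x⌋₊ + 1)).filter 𝔉.Good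
  set Φ : G × PmUnits m → ℝ → ℝ := fun p x => Real.log x / x * (nU * ∑ q ∈ S x,
    (if (e (𝔉.frob q)).2 = p.2 then (hits p.1 (e (𝔉.frob q)).1 : ℝ) else 0))
  have hΦ : ∀ p ∈ idx, Tendsto (Φ p) atTop (𝓝 1) := fun p hp => by
    refine tendsto_pair 𝔉 e hq ?_
    obtain ⟨j, hj⟩ := (Finset.mem_filter.mp (Finset.mem_product.mp hp).2).2
    rw [hj, pow_mul, hn, pow_card_eq_one, one_pow]
  have hlim := tendsto_finsetSum idx hΦ
  rw [Finset.sum_const, nsmul_one] at hlim
  set x₀ : ℝ := (Nat.card X : ℝ) with hx₀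
  have hXc : (X.toFinset.card : ℝ) = x₀ := by
    rw [hx₀, Nat.card_coe_set_eq, Set.ncard_eq_toFinset_card']
  -- the count of the elements of large order
  have hA : (1 - δ / 2) * nU ≤ (Agood.card : ℝ) := by
    have h2 := FA.Weight1.card_not_dvd_orderOf_le (U := PmUnits m) (n := n) (k := k')
      (Nat.succ_pos k) hdiv
    have h3 : (Agood.card : ℝ) + ((Finset.univ.filter
        fun a : PmUnits m => ¬ n ∣ orderOf a).card : ℝ) = nU := by
      rw [hnU, ← Nat.cast_add, Nat.cast_inj]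
      exact Finset.card_filter_add_card_filter_not _
    have h4 : (n : ℝ) ≤ δ / 2 * 2 ^ k' := by
      rw [pow_succ]
      rw [div_lt_iff₀ (by linarith)] at hk
      nlinarith [pow_pos (two_pos (α := ℝ)) k]
    have h5 : ((Finset.univ.filter fun a : PmUnits m => ¬ n ∣ orderOf a).card : ℝ) * 2 ^ k' ≤
        n * nU := by rw [hnU]; exact_mod_cast h2
    have h6 : ((Finset.univ.filter fun a : PmUnits m => ¬ n ∣ orderOf a).card : ℝ) ≤
        δ / 2 * nU := by
      refine le_of_mul_le_mul_right ?_ (pow_pos (two_pos (α := ℝ)) k')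
      nlinarith [mul_le_mul_of_nonneg_right h4 hnU0.le]
    linarith
  have hnn : (0 : ℝ) < nU * n := mul_pos hnU0 (Nat.cast_pos.mpr hn0)
  filter_upwards [hlim.eventually (eventually_ge_nhds
    (sub_lt_self (idx.card : ℝ) (mul_pos (half_pos hδ) hnn))), eventually_ge_atTop 1] with x hx hx1
  refine ⟨(S x).filter fun q => (e (𝔉.frob q)).1 ∈ X, fun q hqT => ?_, ?_⟩
  · obtain ⟨hqS, hqX⟩ := Finset.mem_filter.mp hqT
    obtain ⟨hqr, hqg⟩ := Finset.mem_filter.mp hqS
    obtain ⟨hqpr, hqex, hqm⟩ := hgood q hqg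
    refine ⟨Nat.le_of_lt_succ (Finset.mem_range.mp hqr), hqpr, fun A hA σ hσ => ?_⟩
    have hunr : ∀ A : ValuationSubring Qb, A.LiesOverPrime q →
        ∀ σ ∈ A.inertiaSubgroupIn ℚ, π σ = 1 := fun A hA σ hσ => by
      have hd : ¬ q ∣ (exists_unramified F).choose := fun h =>
        hqex (Nat.mem_divisors.mpr ⟨h, (exists_unramified F).choose_spec.1⟩)
      have h1 := FA.Weight1.inertia_restrict_eq_one F hqpr hd hA hσ
      rw [← MonoidHom.mem_ker, hres] at h1
      exact congrArg Prod.fst (MonoidHom.mem_ker.mp h1)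
    obtain ⟨hA₁, hσ₁⟩ := hAσ q hqpr
    obtain ⟨τ, hτ⟩ := FA.TW.exists_conj_frobenius π hqpr hunr hA₁ hA hσ₁ hσ
    rw [hτ, map_inv]
    refine hX _ ?_ _
    rw [hefrob] at hqX
    exact hqX
  set T := (S x).filter fun q => (e (𝔉.frob q)).1 ∈ X
  set l := Real.log x / x
  have hl : 0 ≤ l := div_nonneg (Real.log_nonneg hx1) (by linarith)
  have h1 : ∑ p ∈ idx, Φ p x ≤ l * (nU * (n * T.card)) := by
    simp only [Φ, ← Finset.mul_sum]
    refine mul_le_mul_of_nonneg_left (mul_le_mul_of_nonneg_left ?_ hnU0.le) hl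
    rw [Finset.sum_comm]
    refine (Finset.sum_le_sum fun q _ => le_of_eq_of_le (Finset.sum_product _ _ _)
      (le_trans (le_of_eq ?_) (FA.Chebotarev.weighted_le hX Agood (e (𝔉.frob q))))).trans ?_
    · exact Finset.sum_congr rfl fun σ _ => Finset.sum_congr rfl fun a _ => by congr!
    rw [← Finset.mul_sum, Finset.sum_boole]
  rw [Finset.card_product] at hx
  push_cast at hx
  rw [hXc] at hx
  have hxn : x₀ ≤ n := by rw [← hXc, hn, Nat.cast_le]; exact Finset.card_le_univ _
  have hx0 : 0 ≤ x₀ := Nat.cast_nonneg _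
  refine le_of_mul_le_mul_left ?_ hnn
  have h2 := mul_le_mul_of_nonneg_left hA hx0
  have h3 : x₀ * δ / 2 * nU ≤ n * δ / 2 * nU := by gcongr
  have h4 : nU * n * (x₀ / n - δ) = nU * x₀ - nU * n * δ := by field_simp
  rw [h4]
  linarith

end FA.NaturalChebotarev

end
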