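import Fermat.Agent.NaturalChebotarev.Counting
import Fermat.Agent.Weight1.DensityPairs

/-!
# Primes with Frobenius element `(σ, a)`, counted by size

In a Galois extension with group `G × (ℤ/m)ˣ/±1`, where the second projection is the cyclotomic
one, the even characters mod `m` of the norms to the fixed field of `(σ, a)` are Hecke characters,
so their means give the number of primes of degree one of that field in a class mod `m`.
-/

set_option autoImplicit false
set_option linter.style.haveILetI false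
set_option linter.unusedSectionVars false

noncomputable section

open NumberField IsDedekindDomain Filter Topology FA.Density FA.Hecke
open FA.Ext (primeIdeal)
open FA.Weight1 (PmUnits InClass classInd classInd_nonneg classInd_le_one hits dirChar normVal)
open scoped nonZeroDivisors Classical

namespace FA.NaturalChebotarev

variable {m : ℕ} [Fact m.Prime]

/-- `ψ` of the norm. -/
def normChar {K : Type*} [Field K] [NumberField K] (ψ : DirichletCharacter ℂ m) :
    Ideal (𝓞 K) →* ℂ where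
  toFun := normVal ψ
  map_one' := by simp [FA.Weight1.normVal]
  map_mul' := FA.Weight1.normVal_mul ψ

/-- **An even character of the norms is a Hecke character.** -/
theorem isRayChar_normChar {K : Type*} [Field K] [NumberField K] (ψ : DirichletCharacter ℂ m)
    (hψ : ψ (-1) = 1) :
    IsRayChar (Ideal.span {(m : 𝓞 K)}) (normChar (K := K) ψ) where
  ne_bot := FA.Weight1.span_natCast_ne_bot K m
  ne_zero_iff I hI := by
    refine ⟨fun h0 => ?_, fun h => FA.Weight1.normVal_ne_zero_of_sup ψ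
      (J := ⟨I, mem_nonZeroDivisors_iff_ne_zero.mpr hI⟩) h⟩
    by_contra hc
    obtain ⟨P, hP, hle⟩ := Ideal.exists_le_maximal _ hc
    set v : HeightOneSpectrum (𝓞 K) := ⟨P, hP.isPrime,
      Ring.ne_bot_of_isMaximal_of_not_isField hP (RingOfIntegers.not_isField K)⟩
    obtain ⟨i, hi, hN⟩ := FA.PrimeIdeal.exists_absNorm_eq_pow (Fact.out : m.Prime)
      (show (m : 𝓞 K) ∈ v.asIdeal from hle (Ideal.mem_sup_right (Ideal.mem_span_singleton_self _)))
    have hd : m ∣ Ideal.absNorm I :=
      (dvd_pow_self m hi.ne').trans (hN ▸ map_dvd Ideal.absNorm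
        (Ideal.dvd_iff_le.mpr (le_sup_left.trans hle)))
    refine h0 ?_
    show ψ ((Ideal.absNorm I : ℕ) : ZMod m) = 0
    rw [(ZMod.natCast_eq_zero_iff _ _).mpr hd, MulChar.map_zero]
  ray x _ hx _ := by
    show normVal ψ (Ideal.span {x}) = 1
    rw [FA.Weight1.normVal_congr ψ hψ hx]
    simp [FA.Weight1.normVal]

variable {F : Type*} [Field F] [NumberField F] [IsGalois ℚ F] (𝔉 : FrobSystem F)
variable {G : Type*} [Group G] [Fintype G] (e : (F ≃ₐ[ℚ] F) ≃* G × PmUnits m)
variable (hq : ∀ q, 𝔉.Good q → ∀ u, InClass m u q ↔ (e (𝔉.frob q)).2 = u)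

include hq in
/-- **The primes with Frobenius element conjugate to `(σ, a)`.** -/
theorem tendsto_pair [Fintype (PmUnits m)] {σ : G} {a : PmUnits m} (hσa : σ ^ orderOf a = 1) :
    Tendsto (fun x : ℝ => (Real.log x / x) * ((Fintype.card (PmUnits m) : ℝ) *
      ∑ q ∈ (Finset.range (⌊x⌋₊ + 1)).filter 𝔉.Good,
        (if (e (𝔉.frob q)).2 = a then (hits σ (e (𝔉.frob q)).1 : ℝ) else 0))) atTop (𝓝 1) := by
  set r := orderOf a with hr
  have hr0 : 0 < r := orderOf_pos a
  set z₀ := e.symm (σ, a)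
  set H := Subgroup.zpowers z₀ with hH
  have hcardH : Nat.card H = r := by
    rw [hH, Nat.card_zpowers, MulEquiv.orderOf_eq, Prod.orderOf_mk]
    exact Nat.lcm_eq_right (orderOf_dvd_of_pow_eq_one hσa)
  let K := IntermediateField.fixedField H
  have hcount : ∀ q : ℕ, ∃ T : Finset (HeightOneSpectrum (𝓞 K)), 𝔉.Good q →
      (∀ v, v ∈ T ↔ v ∈ degOne H q) ∧
      conjCount (H : Set (F ≃ₐ[ℚ] F)) (𝔉.frob q) = r * T.card := fun q => by
    by_cases hg : 𝔉.Good q
    · obtain ⟨P, hP⟩ := 𝔉.spec q hg.1 hg.2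
      obtain ⟨T, hT, hTc⟩ := hP.exists_count H
      exact ⟨T, fun _ => ⟨hT, by rw [← hcardH]; exact hTc⟩⟩
    · exact ⟨∅, fun h => absurd h hg⟩
  choose T hT using hcount
  set N : HeightOneSpectrum (𝓞 K) → ℕ := fun v => Ideal.absNorm v.asIdeal
  -- the classes of the norms of primes of degree one
  have hpow : ∀ v, 𝔉.Good (N v) → ∃ k : ℤ, (e (𝔉.frob (N v))).2 = a ^ k := fun v hg => by
    have hpos : 0 < conjCount (H : Set (F ≃ₐ[ℚ] F)) (𝔉.frob (N v)) := by
      rw [(hT _ hg).2]
      exact Nat.mul_pos hr0 (Finset.card_pos.mpr ⟨v, ((hT _ hg).1 v).mpr rfl⟩)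
    obtain ⟨y, hy⟩ := Finset.card_pos.mp hpos
    obtain ⟨k, hk⟩ := (Finset.mem_filter.mp hy).2
    refine ⟨k, ?_⟩
    have := congrArg (fun z => (e z).2) hk
    simp only [z₀, map_zpow, map_mul, map_inv, MulEquiv.apply_symm_apply, Prod.pow_snd,
      Prod.snd_mul, Prod.snd_inv] at this
    rw [mul_comm ((e y).2), mul_inv_cancel_right] at this
    exact this.symm
  have hval : ∀ (χ : PmUnits m →* ℂˣ) v, 𝔉.Good (N v) →
      normChar (K := K) (dirChar χ) v.asIdeal = ((χ (e (𝔉.frob (N v))).2 : ℂˣ) : ℂ) :=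
    fun χ v hg => by
      obtain ⟨w, hw, hwu⟩ := (hq (N v) hg _).mpr rfl
      show dirChar χ ((N v : ℕ) : ZMod m) = _
      rw [← hw, FA.Weight1.dirChar_unit, hwu]
  set S : Set (HeightOneSpectrum (𝓞 K)) := {v | N v ∈ 𝔉.excluded}
  have hS : S.Finite := (FA.PrimeIdeal.finite_primes_le (𝔉.excluded.sup id)).subset
    fun v hv => Finset.le_sup (f := id) hv
  -- the means of the characters
  have hmean : ∀ χ : PmUnits m →* ℂˣ,
      HasMean (fun v => normChar (K := K) (dirChar χ) v.asIdeal) (if χ a = 1 then 1 else 0) := by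
    intro χ
    have h := isRayChar_normChar (K := K) (dirChar χ) (FA.Weight1.dirChar_neg_one χ)
    split_ifs with hχ
    · have h1 : HasMean (fun _ : HeightOneSpectrum (𝓞 K) => (1 : ℂ)) 1 := by
        simpa using (hasMean_one K).map Complex.ofRealCLM
      refine hasMean_congr S hS (fun v => (norm_sub_le _ _).trans
        (add_le_add (h.norm_le v.ne_bot) (le_of_eq norm_one))) (fun v hv hp => ?_) h1
      obtain ⟨k, hk⟩ := hpow v ⟨hp, hv⟩
      rw [hval χ v ⟨hp, hv⟩, hk, map_zpow, hχ, one_zpow, Units.val_one]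
    · refine h.hasMean_zero ?_
      obtain ⟨q, hqp, -, hqe, y, hy⟩ := 𝔉.exists_generating z₀ ∅
      have hg : 𝔉.Good q := ⟨hqp, hqe⟩
      have hyH : y * 𝔉.frob q * y⁻¹ ∈ H := by
        rw [hH, ← hy]; exact Subgroup.mem_zpowers _
      have hpos : 0 < conjCount (H : Set (F ≃ₐ[ℚ] F)) (𝔉.frob q) :=
        Finset.card_pos.mpr ⟨y, Finset.mem_filter.mpr ⟨Finset.mem_univ _, hyH⟩⟩
      rw [(hT q hg).2] at hpos
      obtain ⟨v, hv⟩ := Finset.card_pos.mp (Nat.pos_of_mul_pos_left hpos)
      have hNv : N v = q := ((hT q hg).1 v).mp hv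
      have hgv : 𝔉.Good (N v) := hNv.symm ▸ hg
      refine ⟨v.asIdeal, v.ne_bot, ?_, ?_⟩ <;> rw [hval χ v hgv]
      · exact Units.ne_zero _
      · intro h1
        refine hχ ?_
        obtain ⟨k, hk⟩ : z₀ ∈ Subgroup.zpowers (y * 𝔉.frob q * y⁻¹) := hy ▸ Subgroup.mem_zpowers z₀
        have h2 : ((e (𝔉.frob q)).2) ^ k = a := by
          have := congrArg (fun z => (e z).2) hk
          simp only [z₀, map_zpow, map_mul, map_inv, MulEquiv.apply_symm_apply, Prod.pow_snd,
            Prod.snd_mul, Prod.snd_inv] at this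
          rwa [mul_comm ((e y).2), mul_inv_cancel_right] at this
        rw [hNv] at h1
        rw [← h2, map_zpow, show χ (e (𝔉.frob q)).2 = 1 from Units.ext (by simpa using h1),
          one_zpow]
  -- orthogonality
  set nU : ℝ := (Fintype.card (PmUnits m) : ℝ) with hnU
  set W := Finset.univ.filter fun χ : PmUnits m →* ℂˣ => χ a = 1
  have hW : (W.card : ℝ) * r = nU := by
    rw [hnU, ← FA.Weight1.card_trivial_mul_orderOf a]; push_cast; rfl
  have h1 : HasMean (fun v => nU * classInd a (N v)) (W.card : ℝ) := by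
    have h := (HasMean.finset_sum Finset.univ fun χ _ => (hmean χ).map
      (((χ a⁻¹ : ℂˣ) : ℂ) • ContinuousLinearMap.id ℂ ℂ |>.restrictScalars ℝ)).map Complex.reCLM
    simp only [ContinuousLinearMap.coe_restrictScalars', _root_.smul_apply,
      ContinuousLinearMap.id_apply, smul_eq_mul, Complex.reCLM_apply] at h
    convert h using 1
    · funext v
      rw [Finset.sum_congr rfl fun χ _ => show ((χ a⁻¹ : ℂˣ) : ℂ) * normChar (K := K) (dirChar χ)
        v.asIdeal = dirChar χ ((N v : ℕ) : ZMod m) * ((χ a⁻¹ : ℂˣ) : ℂ) from mul_comm _ _,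
        FA.Weight1.sum_dirChar_mul, Complex.ofReal_re]
    · rw [Finset.sum_congr rfl (g := fun χ => if χ a = 1 then (1 : ℂ) else 0) fun χ _ => by
        split_ifs with hχ
        · rw [map_inv, hχ, inv_one, Units.val_one, one_mul]
        · rw [mul_zero], Finset.sum_boole, Complex.natCast_re]
  have h2 : HasMean (fun v => if 𝔉.Good (N v) then nU * classInd a (N v) else 0) (W.card : ℝ) := by
    refine hasMean_congr S hS (B := nU) (fun v => ?_) (fun v hv hp => if_pos ⟨hp, hv⟩) h1
    have h0 := classInd_nonneg a (N v)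
    have h0' := classInd_le_one a (N v)
    rw [Real.norm_eq_abs, abs_le]
    constructor <;> split_ifs <;> nlinarith [(Nat.cast_nonneg _ : (0 : ℝ) ≤ nU)]
  have h3 := Filter.Tendsto.const_mul ((r : ℝ) / nU) h2
  rw [div_mul_eq_mul_div, mul_comm (r : ℝ), hW,
    div_self (Nat.cast_ne_zero.mpr Fintype.card_ne_zero)] at h3
  refine h3.congr fun x => ?_
  rw [smul_eq_mul, mul_left_comm, wSum]
  congr 1
  set n := ⌊x⌋₊
  have hmaps : ((primesLE K n).filter fun v => 𝔉.Good (N v)) =
      ((Finset.range (n + 1)).filter 𝔉.Good).biUnion T := by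
    ext v
    simp only [Finset.mem_filter, mem_primesLE, Finset.mem_biUnion, Finset.mem_range]
    constructor
    · exact fun ⟨h1, h2⟩ => ⟨N v, ⟨Nat.lt_succ_of_le h1, h2⟩, ((hT _ h2).1 v).mpr rfl⟩
    · rintro ⟨q, ⟨hqn, hg⟩, hvq⟩
      have hNq : N v = q := ((hT q hg).1 v).mp hvq
      exact ⟨(le_of_eq hNq).trans (Nat.le_of_lt_succ hqn), hNq.symm ▸ hg⟩
  rw [← Finset.sum_filter, hmaps, Finset.sum_biUnion fun x hx y hy hxy => by
    rw [Function.onFun, Finset.disjoint_left]
    intro v hvx hvy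
    exact hxy ((((hT x (Finset.mem_filter.mp hx).2).1 v).mp hvx).symm.trans
      (((hT y (Finset.mem_filter.mp hy).2).1 v).mp hvy))]
  rw [Finset.mul_sum, Finset.mul_sum]
  refine Finset.sum_congr rfl fun q hqS => ?_
  have hg := (Finset.mem_filter.mp hqS).2
  rw [Finset.sum_congr rfl (g := fun _ => nU * classInd a q) fun v hv => by
    rw [show N v = q from ((hT q hg).1 v).mp hv], Finset.sum_const, nsmul_eq_mul]
  have hU : nU ≠ 0 := Nat.cast_ne_zero.mpr Fintype.card_ne_zero
  have hc : (r : ℝ) * (T q).card = (conjCount (H : Set (F ≃ₐ[ℚ] F)) (𝔉.frob q) : ℝ) := by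
    rw [(hT q hg).2, Nat.cast_mul]
  by_cases hb : (e (𝔉.frob q)).2 = a
  · rw [if_pos hb, classInd, if_pos ((hq q hg a).mpr hb)]
    rw [hH, FA.Weight1.conjCount_pair e hσa hb, Nat.cast_mul, ← hnU] at hc
    field_simp
    linear_combination hc
  · rw [if_neg hb, classInd, if_neg fun h => hb ((hq q hg a).mp h)]
    simp

end FA.NaturalChebotarev

end
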