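import Fermat.Agent.NaturalChebotarev.Symbols

/-!
# Characters modulo `𝔪` and the real places

A multiplicative function on the ideals, nonzero exactly at those prime to `𝔪` and trivial on the
totally positive principal ideals congruent to `1`: a Hecke character of finite order.  Its values
are roots of unity, and on principal ideals they depend only on the residue and the signs.
-/

set_option autoImplicit false
set_option linter.unusedSectionVars false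

noncomputable section

open NumberField IsDedekindDomain Ideal FA.Ext
open scoped nonZeroDivisors Classical

namespace FA.Hecke

variable {K : Type*} [Field K] [NumberField K]

/-- **A character of finite order modulo `𝔪` and the real places.** -/
structure IsRayChar (𝔪 : Ideal (𝓞 K)) (f : Ideal (𝓞 K) →* ℂ) : Prop where
  ne_bot : 𝔪 ≠ ⊥
  ne_zero_iff : ∀ I : Ideal (𝓞 K), I ≠ ⊥ → (f I ≠ 0 ↔ I ⊔ 𝔪 = ⊤)
  ray : ∀ x : 𝓞 K, x ≠ 0 → x - 1 ∈ 𝔪 → (∀ φ : K →+* ℝ, 0 < φ x) → f (Ideal.span {x}) = 1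

theorem isUnit_mk_of_sup {𝔪 : Ideal (𝓞 K)} {x : 𝓞 K} (h : Ideal.span {x} ⊔ 𝔪 = ⊤) :
    IsUnit (Ideal.Quotient.mk 𝔪 x) := by
  obtain ⟨a, ha, b, hb, hab⟩ := Submodule.mem_sup.mp ((Ideal.eq_top_iff_one _).mp h)
  obtain ⟨c, rfl⟩ := Ideal.mem_span_singleton.mp ha
  refine IsUnit.of_mul_eq_one (Ideal.Quotient.mk 𝔪 c) ?_
  have h1 := congrArg (Ideal.Quotient.mk 𝔪) hab
  rwa [map_add, Ideal.Quotient.eq_zero_iff_mem.mpr hb, add_zero, map_mul, map_one] at h1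

theorem span_sup_congr {𝔪 : Ideal (𝓞 K)} {x y : 𝓞 K} (h : x - y ∈ 𝔪) :
    Ideal.span {x} ⊔ 𝔪 = Ideal.span {y} ⊔ 𝔪 := by
  have key : ∀ a b : 𝓞 K, a - b ∈ 𝔪 → Ideal.span {a} ⊔ 𝔪 ≤ Ideal.span {b} ⊔ 𝔪 := fun a b hab => by
    refine sup_le ((Ideal.span_singleton_le_iff_mem _).mpr ?_) le_sup_right
    rw [← add_sub_cancel b a]
    exact Submodule.add_mem_sup (Ideal.mem_span_singleton_self b) hab
  exact le_antisymm (key x y h) (key y x (by simpa using 𝔪.neg_mem h))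

theorem mul_sup_eq_top {𝔪 I J : Ideal (𝓞 K)} :
    I * J ⊔ 𝔪 = ⊤ ↔ I ⊔ 𝔪 = ⊤ ∧ J ⊔ 𝔪 = ⊤ := by
  simp only [← Ideal.isCoprime_iff_sup_eq, IsCoprime.mul_left_iff]

/-- The number of residues prime to the modulus. -/
def unitCount (𝔪 : Ideal (𝓞 K)) : ℕ := Nat.card (𝓞 K ⧸ 𝔪)ˣ

theorem unitCount_pos {𝔪 : Ideal (𝓞 K)} (h : 𝔪 ≠ ⊥) : 0 < unitCount 𝔪 := by
  have : Finite (𝓞 K ⧸ 𝔪) := Ideal.finiteQuotientOfFreeOfNeBot 𝔪 h
  exact Nat.card_pos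

theorem pow_unitCount_mk {𝔪 : Ideal (𝓞 K)} (h : 𝔪 ≠ ⊥) {x : 𝓞 K}
    (hx : Ideal.span {x} ⊔ 𝔪 = ⊤) : (Ideal.Quotient.mk 𝔪 x) ^ unitCount 𝔪 = 1 := by
  have : Finite (𝓞 K ⧸ 𝔪) := Ideal.finiteQuotientOfFreeOfNeBot 𝔪 h
  obtain ⟨u, hu⟩ := isUnit_mk_of_sup hx
  rw [← hu, ← Units.val_pow_eq_pow_val, unitCount, pow_card_eq_one', Units.val_one]

/-- `x ^ (2 N)` is congruent to `1` and totally positive. -/
theorem ray_pow {𝔪 : Ideal (𝓞 K)} (h : 𝔪 ≠ ⊥) {x : 𝓞 K} (hx0 : x ≠ 0)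
    (hx : Ideal.span {x} ⊔ 𝔪 = ⊤) :
    x ^ (2 * unitCount 𝔪) ≠ 0 ∧ x ^ (2 * unitCount 𝔪) - 1 ∈ 𝔪 ∧
      ∀ φ : K →+* ℝ, 0 < φ (x ^ (2 * unitCount 𝔪) : 𝓞 K) := by
  refine ⟨pow_ne_zero _ hx0, ?_, fun φ => ?_⟩
  · rw [← Ideal.Quotient.eq_zero_iff_mem, map_sub, map_one, map_pow, mul_comm, pow_mul,
      pow_unitCount_mk h hx, one_pow, sub_self]
  · push_cast
    rw [map_pow, pow_mul]
    exact pow_pos (pow_two_pos_of_ne_zero
      ((map_ne_zero _).mpr (RingOfIntegers.coe_ne_zero_iff.mpr hx0))) _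

/-- A product congruent to `1` and totally positive. -/
theorem ray_mul {𝔪 : Ideal (𝓞 K)} (h : 𝔪 ≠ ⊥) {x y : 𝓞 K} (hx0 : x ≠ 0) (hy0 : y ≠ 0)
    (hy : Ideal.span {y} ⊔ 𝔪 = ⊤) (hxy : x - y ∈ 𝔪) (hs : ∀ φ : K →+* ℝ, 0 < φ x * φ y) :
    x * y ^ (2 * unitCount 𝔪 - 1) ≠ 0 ∧ x * y ^ (2 * unitCount 𝔪 - 1) - 1 ∈ 𝔪 ∧
      ∀ φ : K →+* ℝ, 0 < φ (x * y ^ (2 * unitCount 𝔪 - 1) : 𝓞 K) := by
  have hN := unitCount_pos h
  refine ⟨mul_ne_zero hx0 (pow_ne_zero _ hy0), ?_, fun φ => ?_⟩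
  · rw [← Ideal.Quotient.eq_zero_iff_mem, map_sub, map_one, map_mul, map_pow,
      Ideal.Quotient.eq.mpr hxy, ← pow_succ', show 2 * unitCount 𝔪 - 1 + 1 = unitCount 𝔪 * 2 by
        omega, pow_mul, pow_unitCount_mk h hy, one_pow, sub_self]
  · rw [show 2 * unitCount 𝔪 - 1 = 1 + 2 * (unitCount 𝔪 - 1) by omega, pow_add, pow_one, pow_mul,
      ← mul_assoc]
    push_cast
    rw [map_mul, map_mul, map_pow, map_pow]
    exact mul_pos (hs φ) (pow_pos (pow_two_pos_of_ne_zero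
      ((map_ne_zero _).mpr (RingOfIntegers.coe_ne_zero_iff.mpr hy0))) _)

namespace IsRayChar

variable {𝔪 : Ideal (𝓞 K)} {f g : Ideal (𝓞 K) →* ℂ}

theorem eq_zero_of_not (h : IsRayChar 𝔪 f) {I : Ideal (𝓞 K)} (hI : I ≠ ⊥) (hc : ¬I ⊔ 𝔪 = ⊤) :
    f I = 0 :=
  not_not.mp fun h0 => hc ((h.ne_zero_iff I hI).mp h0)

/-- The values are roots of unity. -/
theorem exists_pow_eq_one (h : IsRayChar 𝔪 f) :
    ∃ M, 0 < M ∧ ∀ I : Ideal (𝓞 K), I ≠ ⊥ → I ⊔ 𝔪 = ⊤ → f I ^ M = 1 := by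
  refine ⟨classNumber K * (2 * unitCount 𝔪),
    Nat.mul_pos (classNumber_pos K) (Nat.mul_pos two_pos (unitCount_pos h.ne_bot)),
    fun I hI hc => ?_⟩
  let I₀ : (Ideal (𝓞 K))⁰ := ⟨I, mem_nonZeroDivisors_iff_ne_zero.mpr hI⟩
  have h1 : ClassGroup.mk0 (I₀ ^ classNumber K) = 1 := by
    rw [map_pow, classNumber, pow_card_eq_one]
  obtain ⟨x, hx⟩ := (ClassGroup.mk0_eq_one_iff (SetLike.coe_mem (I₀ ^ classNumber K))).mp h1
  have hx' : I ^ classNumber K = Ideal.span {x} := hx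
  have hx0 : x ≠ 0 := fun h0 => pow_ne_zero (classNumber K) hI (by rw [hx', h0]; simp)
  have hcx : Ideal.span {x} ⊔ 𝔪 = ⊤ := by
    rw [← hx', ← Ideal.isCoprime_iff_sup_eq]
    exact (Ideal.isCoprime_iff_sup_eq.mpr hc).pow_left
  obtain ⟨r1, r2, r3⟩ := ray_pow h.ne_bot hx0 hcx
  rw [pow_mul, ← map_pow f, ← map_pow f, hx', Ideal.span_singleton_pow]
  exact h.ray _ r1 r2 r3

theorem norm_eq_one (h : IsRayChar 𝔪 f) {I : Ideal (𝓞 K)} (hI : I ≠ ⊥) (h0 : f I ≠ 0) :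
    ‖f I‖ = 1 := by
  obtain ⟨M, hM, hM'⟩ := h.exists_pow_eq_one
  exact Complex.norm_eq_one_of_pow_eq_one (hM' I hI ((h.ne_zero_iff I hI).mp h0)) hM.ne'

theorem norm_le (h : IsRayChar 𝔪 f) {I : Ideal (𝓞 K)} (hI : I ≠ ⊥) : ‖f I‖ ≤ 1 := by
  by_cases h0 : f I = 0
  · simp [h0]
  · exact (h.norm_eq_one hI h0).le

theorem prime_zero_or_one (h : IsRayChar 𝔪 f) (v : HeightOneSpectrum (𝓞 K)) :
    f v.asIdeal = 0 ∨ ‖f v.asIdeal‖ = 1 :=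
  or_iff_not_imp_left.mpr fun h0 => h.norm_eq_one v.ne_bot h0

/-- **Only the residue and the signs matter.** -/
theorem eq_of_congr (h : IsRayChar 𝔪 f) {x y : 𝓞 K} (hx : x ≠ 0) (hy : y ≠ 0)
    (hxy : x - y ∈ 𝔪) (hs : ∀ φ : K →+* ℝ, 0 < φ x * φ y) :
    f (Ideal.span {x}) = f (Ideal.span {y}) := by
  have hy' : Ideal.span {y} ≠ ⊥ := by simpa using hy
  have hx' : Ideal.span {x} ≠ ⊥ := by simpa using hx
  by_cases hc : Ideal.span {y} ⊔ 𝔪 = ⊤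
  · obtain ⟨a1, a2, a3⟩ := ray_mul h.ne_bot hx hy hc hxy hs
    obtain ⟨b1, b2, b3⟩ := ray_mul h.ne_bot hy hy hc (by simp) fun φ => mul_self_pos.mpr
      ((map_ne_zero _).mpr (RingOfIntegers.coe_ne_zero_iff.mpr hy))
    have e1 := h.ray _ a1 a2 a3
    have e2 := h.ray _ b1 b2 b3
    rw [← Ideal.span_singleton_mul_span_singleton, map_mul] at e1 e2
    exact mul_right_cancel₀ (fun h0 => by simp [h0] at e1) (e1.trans e2.symm)
  · rw [h.eq_zero_of_not hy' hc, h.eq_zero_of_not hx' (by rwa [span_sup_congr hxy])]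

theorem finite_zero (h : IsRayChar 𝔪 f) :
    {v : HeightOneSpectrum (𝓞 K) | f v.asIdeal = 0}.Finite := by
  refine (Ideal.finite_factors h.ne_bot).subset fun v hv => ?_
  by_contra hd
  refine (h.ne_zero_iff _ v.ne_bot).mpr (v.isMaximal.out.2 _ ?_) hv
  exact lt_of_le_of_ne le_sup_left fun he => hd (Ideal.dvd_iff_le.mpr (sup_eq_left.mp he.symm))

theorem one : IsRayChar (⊤ : Ideal (𝓞 K)) (1 : Ideal (𝓞 K) →* ℂ) :=
  ⟨top_ne_bot, fun I _ => by simp, fun _ _ _ _ => rfl⟩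

theorem mul (h : IsRayChar 𝔪 f) (h' : IsRayChar 𝔪 g) : IsRayChar 𝔪 (f * g) where
  ne_bot := h.ne_bot
  ne_zero_iff I hI := by
    rw [MonoidHom.mul_apply, mul_ne_zero_iff, h.ne_zero_iff I hI, h'.ne_zero_iff I hI, and_self]
  ray x hx0 hx hp := by rw [MonoidHom.mul_apply, h.ray x hx0 hx hp, h'.ray x hx0 hx hp, one_mul]

/-- The conjugate character. -/
theorem conj (h : IsRayChar 𝔪 f) : IsRayChar 𝔪 ((starRingEnd ℂ).toMonoidHom.comp f) where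
  ne_bot := h.ne_bot
  ne_zero_iff I hI := by
    rw [MonoidHom.comp_apply, ← h.ne_zero_iff I hI]
    exact (map_ne_zero (starRingEnd ℂ))
  ray x hx0 hx hp := by
    rw [MonoidHom.comp_apply, h.ray x hx0 hx hp]
    exact map_one (starRingEnd ℂ)

end IsRayChar

/-- Nontrivial on the ideals prime to the modulus. -/
def IsNontrivial (f : Ideal (𝓞 K) →* ℂ) : Prop := ∃ I, I ≠ ⊥ ∧ f I ≠ 0 ∧ f I ≠ 1

theorem IsNontrivial.conj {f : Ideal (𝓞 K) →* ℂ} (h : IsNontrivial f) :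
    IsNontrivial ((starRingEnd ℂ).toMonoidHom.comp f) := by
  obtain ⟨I, hI, h0, h1⟩ := h
  refine ⟨I, hI, (map_ne_zero (starRingEnd ℂ)).mpr h0, fun he => h1 ?_⟩
  exact (starRingEnd ℂ).injective (he.trans (map_one _).symm)

theorem eq_one_of_not_isNontrivial {f : Ideal (𝓞 K) →* ℂ} (h : ¬IsNontrivial f)
    {I : Ideal (𝓞 K)} (hI : I ≠ ⊥) (h0 : f I ≠ 0) : f I = 1 := by
  by_contra h1
  exact h ⟨I, hI, h0, h1⟩

/-- **Every class contains an ideal prime to `𝔪`.** -/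
theorem exists_coprime_class {𝔪 : Ideal (𝓞 K)} (h𝔪 : 𝔪 ≠ ⊥) (C : ClassGroup (𝓞 K)) :
    ∃ J : (Ideal (𝓞 K))⁰, ClassGroup.mk0 J = C⁻¹ ∧ J.1 ⊔ 𝔪 = ⊤ := by
  obtain ⟨J₀, hJ₀⟩ := ClassGroup.mk0_surjective C
  have hJ0 : J₀.1 ≠ 0 := nonZeroDivisors.coe_ne_zero J₀
  obtain ⟨y, hy⟩ := IsDedekindDomain.exists_sup_span_eq (I := 𝔪 * J₀.1) (J := J₀.1)
    (Ideal.mul_le_inf.trans inf_le_right) (mul_ne_zero h𝔪 hJ0)
  by_cases hyne : y = 0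
  · obtain ⟨J, hJ⟩ := ClassGroup.mk0_surjective C⁻¹
    rw [Ideal.span_singleton_eq_bot.mpr hyne, sup_bot_eq] at hy
    have h1 : 𝔪 = 1 := mul_right_cancel₀ hJ0 (hy.trans (one_mul _).symm)
    exact ⟨J, hJ, by rw [h1, Ideal.one_eq_top, sup_top_eq]⟩
  have hyJ : Ideal.span {y} ≤ J₀.1 := le_sup_right.trans_eq hy
  obtain ⟨J, hJ⟩ := Ideal.dvd_iff_le.mpr hyJ
  have hJne : J ≠ 0 := fun h => hyne (Ideal.span_singleton_eq_bot.mp (by rw [hJ, h, mul_zero]; rfl))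
  refine ⟨⟨J, mem_nonZeroDivisors_iff_ne_zero.mpr hJne⟩, ?_, ?_⟩
  · refine eq_inv_of_mul_eq_one_right ?_
    rw [← hJ₀, ← map_mul]
    exact (ClassGroup.mk0_eq_one_iff
      (SetLike.coe_mem (J₀ * ⟨J, mem_nonZeroDivisors_iff_ne_zero.mpr hJne⟩))).mpr ⟨y, hJ.symm⟩
  · refine mul_left_cancel₀ hJ0 ?_
    rw [Ideal.mul_sup, ← hJ, ← Ideal.one_eq_top, mul_one, mul_comm, sup_comm]
    exact hy

end FA.Hecke

end
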