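import Fermat.Agent.NaturalChebotarev.Density
import Fermat.Agent.Chebotarev.Relative

/-!
# Natural Chebotarev over a number field, from below

For number fields `K ⊆ L ⊆ M`, with `L/K` and `M/ℚ` Galois, and a subset `C` of `Gal(L/K)` stable
under conjugation, the degree one primes of `K` all whose Frobenius elements lie in `C` are counted
by size from below by the primes `q` with a Frobenius element of `M` in the preimage of `C`.
-/

set_option autoImplicit false
set_option linter.style.haveILetI false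

noncomputable section

open NumberField IsDedekindDomain Filter Topology FA.Density FA.Hecke
open FA.Chebotarev (strictFrobSet hits_mul_card_class natCard_quotient_of_forall_pow
  exists_isFrobPair_restrict isOpen_ker_restrict)
open FA.Weight1 (hits)
open scoped Pointwise Classical

namespace FA.NaturalChebotarev

local notation "Qb" => AlgebraicClosure ℚ
local notation "GQ" => AlgebraicClosure ℚ ≃ₐ[ℚ] AlgebraicClosure ℚ

variable {K L : Type*} [Field K] [NumberField K] [Field L] [NumberField L] [Algebra K L]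
variable {M : Type} [Field M] [NumberField M] [IsGalois ℚ M] [Algebra K M] [Algebra L M]
variable [IsScalarTower K L M] [IsGalois K L] [Algebra M Qb] [IsScalarTower ℚ M Qb]

/-- The number of primes of `S` of norm at most `x`. -/
def countIn (S : Set (HeightOneSpectrum (𝓞 K))) (x : ℝ) : ℕ :=
  ((primesLE K ⌊x⌋₊).filter (· ∈ S)).card

include M in
/-- **The lower bound over a number field.** -/
theorem exists_strict_natural_lower (C : Set (L ≃ₐ[K] L)) (hC : ∀ g ∈ C, ∀ x, x * g * x⁻¹ ∈ C)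
    {δ : ℝ} (hδ : 0 < δ) :
    ∀ᶠ x : ℝ in atTop, (Nat.card C : ℝ) / Nat.card (L ≃ₐ[K] L) - δ ≤
      Real.log x / x * countIn (strictFrobSet K L C) x := by
  have : IsGalois K M := IsGalois.tower_top_of_isGalois ℚ K M
  -- the groups
  let ι : (M ≃ₐ[K] M) →* (M ≃ₐ[ℚ] M) :=
    { toFun := AlgEquiv.restrictScalars ℚ
      map_one' := rfl
      map_mul' := fun _ _ => rfl }
  have hι : Function.Injective ι := AlgEquiv.restrictScalars_injective ℚ
  let res : (M ≃ₐ[K] M) →* (L ≃ₐ[K] L) := AlgEquiv.restrictNormalHom L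
  have hres : Function.Surjective res := AlgEquiv.restrictNormalHom_surjective (F := K) (K₁ := L) M
  let X : Finset (M ≃ₐ[ℚ] M) := (Finset.univ.filter fun d => res d ∈ C).image ι
  set n : ℝ := (Fintype.card (M ≃ₐ[ℚ] M) : ℝ) with hn
  have hn0 : 0 < n := Nat.cast_pos.mpr Fintype.card_pos
  -- the densities of the classes
  let π : GQ →* (M ≃ₐ[ℚ] M) := AlgEquiv.restrictNormalHom M
  have hB := fun τ : M ≃ₐ[ℚ] M => exists_natural_lower π
    (AlgEquiv.restrictNormalHom_surjective (F := ℚ) (K₁ := M) Qb) isOpen_ker_restrict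
    (X := {y | IsConj τ y}) (fun y hy z => hy.trans (isConj_iff.mpr ⟨z, rfl⟩))
    (div_pos (half_pos hδ) hn0)
  obtain ⟨mM, hmM0, hmM⟩ := exists_unramified M
  obtain ⟨mL, hmL0, hmL⟩ := exists_unramified L
  set bad : Finset ℕ := mM.divisors ∪ mL.divisors
  -- a Frobenius element above each good prime
  have hpair : ∀ q : ℕ, ∃ (P : Ideal (𝓞 M)) (g : M ≃ₐ[ℚ] M), q.Prime → q ∉ bad →
      IsFrobPair q P g ∧ ∃ A : ValuationSubring Qb, A.LiesOverPrime q ∧
        ∃ σ : GQ, A.IsFrobeniusAt σ q ∧ π σ = g := fun q => by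
    by_cases hq : q.Prime ∧ q ∉ bad
    · obtain ⟨A, hA⟩ := FA.Deform.exists_liesOverPrime hq.1
      obtain ⟨σ, hσ⟩ := FA.Deform.exists_isFrobeniusAt hq.1 hA
      obtain ⟨P, hP⟩ := exists_isFrobPair_restrict (F := M) hq.1 (fun P hP hqP =>
        hmM _ P hq.1 hP hqP fun hd => hq.2
          (Finset.mem_union_left _ (Nat.mem_divisors.mpr ⟨hd, hmM0⟩))) hA hσ
      exact ⟨P, _, fun _ _ => ⟨hP, A, hA, σ, hσ, rfl⟩⟩
    · exact ⟨⊥, 1, fun h1 h2 => absurd ⟨h1, h2⟩ hq⟩
  choose P g hPg using hpair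
  set c : ℝ := (Nat.card C : ℝ) / Nat.card (L ≃ₐ[K] L) with hc
  set D : ℝ := (Nat.card (M ≃ₐ[K] M) : ℝ) with hD
  have hD0 : 0 < D := Nat.cast_pos.mpr Nat.card_pos
  have hsmall : Tendsto (fun x : ℝ => n * bad.card * (Real.log x / x)) atTop (𝓝 0) := by
    simpa using (Real.isLittleO_log_id_atTop.tendsto_div_nhds_zero).const_mul (n * bad.card)
  filter_upwards [eventually_all.mpr hB, eventually_ge_atTop 1,
    hsmall.eventually (eventually_le_nhds (half_pos hδ))] with x hT hx1 hsm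
  choose T hTX hTsum using hT
  set l := Real.log x / x
  have hl : 0 ≤ l := div_nonneg (Real.log_nonneg hx1) (by linarith)
  set U := (Finset.univ.biUnion T).filter fun q => q.Prime ∧ q ∉ bad
  set E := U.sigma fun q => Finset.univ.filter fun y : M ≃ₐ[ℚ] M => y * g q * y⁻¹ ∈ X
  have hE : ∀ p ∈ E, p.1.Prime ∧ p.1 ∉ bad ∧ ∃ d, res d ∈ C ∧ ι d = p.2 * g p.1 * p.2⁻¹ := by
    rintro ⟨q, y⟩ hp
    obtain ⟨hq, hx⟩ := Finset.mem_sigma.mp hp
    obtain ⟨d, hd, hde⟩ := Finset.mem_image.mp (Finset.mem_filter.mp hx).2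
    exact ⟨(Finset.mem_filter.mp hq).2.1, (Finset.mem_filter.mp hq).2.2, d,
      (Finset.mem_filter.mp hd).2, hde⟩
  -- the prime of a pair
  let pr : (_ : ℕ) × (M ≃ₐ[ℚ] M) → Ideal (𝓞 K) := fun p => (p.2 • P p.1).under (𝓞 K)
  have hprime : ∀ p ∈ E, (pr p).IsMaximal ∧ Nat.card (𝓞 K ⧸ pr p) = p.1 := by
    intro p hp
    obtain ⟨hq, hbad, d, -, hd⟩ := hE p hp
    have hP := (hPg p.1 hq hbad).1.conj p.2
    have := hP.isMaximal
    have hmax : (pr p).IsMaximal := Ideal.IsMaximal.under (𝓞 K) (p.2 • P p.1)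
    refine ⟨hmax, natCard_quotient_of_forall_pow hq hmax (by
      rw [Ideal.mem_comap, map_natCast]; exact hP.mem) fun y => ?_⟩
    have h1 := neg_mem (hP.frob (algebraMap (𝓞 K) (𝓞 M) y))
    rw [← hd, neg_sub, show ι d • algebraMap (𝓞 K) (𝓞 M) y = algebraMap (𝓞 K) (𝓞 M) y from
      smul_algebraMap d y, ← map_pow, ← map_sub] at h1
    exact h1
  have hv : ∀ p ∈ E, ∃ v : HeightOneSpectrum (𝓞 K), v.asIdeal = pr p := fun p hp =>
    ⟨⟨pr p, (hprime p hp).1.isPrime,
      Ring.ne_bot_of_isMaximal_of_not_isField (hprime p hp).1 (RingOfIntegers.not_isField _)⟩, rfl⟩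
  have : Nonempty (HeightOneSpectrum (𝓞 K)) := by
    obtain ⟨I, hI⟩ := Ideal.exists_maximal (𝓞 K)
    exact ⟨⟨I, hI.isPrime,
      Ring.ne_bot_of_isMaximal_of_not_isField hI (RingOfIntegers.not_isField _)⟩⟩
  choose! φ hφ using hv
  have hφN : ∀ p ∈ E, Ideal.absNorm (φ p).asIdeal = p.1 := fun p hp => by
    rw [hφ p hp, Ideal.absNorm_apply, Submodule.cardQuot_apply]
    exact (hprime p hp).2
  have hmem : ∀ p ∈ E, φ p ∈ strictFrobSet K L C := by
    intro p hp Q' hQ' hQ'v τ' hτ'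
    obtain ⟨hq, hbad, d, hdC, hd⟩ := hE p hp
    have hP := (hPg p.1 hq hbad).1.conj p.2
    have := hP.isMaximal
    have : (Ideal.under (𝓞 L) (p.2 • P p.1)).IsMaximal := Ideal.IsMaximal.under (𝓞 L) (p.2 • P p.1)
    have hQv : ((p.2 • P p.1).under (𝓞 L)).under (𝓞 K) = (φ p).asIdeal := by
      rw [hφ p hp, Ideal.under_under]
    have hτ : IsArithFrobAt (𝓞 K) (res d) ((p.2 • P p.1).under (𝓞 L)) := fun y => by
      rw [hQv, hφ p hp, (hprime p hp).2, Ideal.mem_comap, map_sub, map_pow]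
      convert hP.frob (algebraMap (𝓞 L) (𝓞 M) y) using 2
      rw [← hd]
      exact RingOfIntegers.ext (AlgEquiv.restrictNormal_commutes d L (y : L))
    obtain ⟨h, hh⟩ := Algebra.IsInvariant.exists_smul_of_under_eq (𝓞 K) (𝓞 L) (L ≃ₐ[K] L)
      ((p.2 • P p.1).under (𝓞 L)) Q' (hQv.trans hQ'v.symm)
    have h1 := IsArithFrobAt.mul_inv_mem_inertia (R := 𝓞 K) (hh ▸ hτ.conj h) hτ'
    have hqQ' : (p.1 : 𝓞 L) ∈ Q' := by
      have : (p.1 : 𝓞 K) ∈ Q'.under (𝓞 K) := by
        rw [hQ'v, hφ p hp, Ideal.mem_comap, map_natCast]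
        exact hP.mem
      rwa [Ideal.mem_comap, map_natCast] at this
    have h2 := hmL p.1 Q' hq hQ' hqQ'
      (fun hd => hbad (Finset.mem_union_right _ (Nat.mem_divisors.mpr ⟨hd, hmL0⟩)))
      ((h * res d * h⁻¹ * τ'⁻¹).restrictScalars ℚ) h1
    rw [← mul_inv_eq_one.mp (AlgEquiv.restrictScalars_injective ℚ (h2.trans rfl))]
    exact hC _ hdC h
  have hfib : ∀ p₀ ∈ E, ((E.filter fun p => φ p = φ p₀).card : ℝ) ≤ D := by
    intro p₀ hp₀
    rw [hD, Nat.cast_le, Nat.card_eq_fintype_card, ← Finset.card_univ,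
      ← Finset.card_image_of_injective Finset.univ hι]
    have hfst : ∀ p ∈ E.filter (fun p => φ p = φ p₀), p.1 = p₀.1 := fun p hp => by
      rw [← hφN p (Finset.mem_filter.mp hp).1, (Finset.mem_filter.mp hp).2, hφN p₀ hp₀]
    refine Finset.card_le_card_of_injOn (fun p => p.2 * p₀.2⁻¹) (fun p hp => ?_)
      fun p hp p' hp' hpp => Sigma.ext ((hfst p hp).trans (hfst p' hp').symm)
        (heq_of_eq (mul_right_cancel hpp))
    obtain ⟨hq, hbad, d₀, -, hd₀⟩ := hE p₀ hp₀
    obtain ⟨hpE, hpφ⟩ := Finset.mem_filter.mp (Finset.mem_coe.mp hp)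
    have hP := (hPg p₀.1 hq hbad).1
    have := (hP.conj p₀.2).isMaximal
    have := (hP.conj p.2).isMaximal
    obtain ⟨d, hd⟩ := Algebra.IsInvariant.exists_smul_of_under_eq (𝓞 K) (𝓞 M) (M ≃ₐ[K] M)
      (p₀.2 • P p₀.1) (p.2 • P p₀.1) (by
        have h := congrArg HeightOneSpectrum.asIdeal hpφ.symm
        rw [hφ p₀ hp₀, hφ p hpE] at h
        simp only [pr, hfst p hp] at h
        exact h)
    have hz : p₀.2⁻¹ * (ι d)⁻¹ * p.2 ∈ Subgroup.zpowers (g p₀.1) := by
      refine hP.stabilizer_le (hP.absNorm_below (Subgroup.mem_zpowers _)) ?_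
      rw [mul_smul, mul_smul, hd]
      show p₀.2⁻¹ • ((ι d)⁻¹ • (ι d • (p₀.2 • P p₀.1))) = P p₀.1
      rw [inv_smul_smul, inv_smul_smul]
    obtain ⟨k, hk⟩ := hz
    refine Finset.mem_coe.mpr (Finset.mem_image.mpr ⟨d * d₀ ^ k, Finset.mem_univ _, ?_⟩)
    rw [map_mul, map_zpow, hd₀, conj_zpow, show g p₀.1 ^ k = p₀.2⁻¹ * (ι d)⁻¹ * p.2 from hk]
    group
  -- the count
  have hV : (E.image φ).card ≤ countIn (strictFrobSet K L C) x := by
    refine Finset.card_le_card fun v hv => ?_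
    obtain ⟨p, hp, rfl⟩ := Finset.mem_image.mp hv
    refine Finset.mem_filter.mpr ⟨mem_primesLE.mpr ?_, hmem p hp⟩
    obtain ⟨τ, -, hτ⟩ := Finset.mem_biUnion.mp
      (Finset.mem_filter.mp (Finset.mem_sigma.mp hp).1).1
    exact (le_of_eq (hφN p hp)).trans (hTX τ p.1 hτ).1
  have hE1 : (E.card : ℝ) ≤ D * countIn (strictFrobSet K L C) x := by
    rw [Finset.card_eq_sum_card_image φ E, Nat.cast_sum]
    refine le_trans (Finset.sum_le_card_nsmul _ _ D fun v hv => ?_) ?_
    · obtain ⟨p, hp, rfl⟩ := Finset.mem_image.mp hv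
      exact hfib p hp
    · rw [nsmul_eq_mul, mul_comm]
      exact mul_le_mul_of_nonneg_left (Nat.cast_le.mpr hV) hD0.le
  have hE2 : (E.card : ℝ) = ∑ τ ∈ X, ∑ q ∈ U, (hits τ (g q) : ℝ) := by
    rw [Finset.sum_comm, Finset.card_sigma, Nat.cast_sum]
    refine Finset.sum_congr rfl fun q _ => ?_
    rw [← Nat.cast_sum, Nat.cast_inj]
    rw [Finset.card_eq_sum_card_fiberwise (s := Finset.univ.filter fun y => y * g q * y⁻¹ ∈ X)
      (f := fun y => y * g q * y⁻¹) (t := X)
      fun y hy => (Finset.mem_filter.mp (Finset.mem_coe.mp hy)).2]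
    refine Finset.sum_congr rfl fun τ hτ => congrArg Finset.card ?_
    ext y
    simp only [Finset.mem_filter, Finset.mem_univ, true_and]
    exact ⟨fun h => h.2, fun h => ⟨h ▸ hτ, h⟩⟩
  have hone : ∀ τ : M ≃ₐ[ℚ] M, 1 - δ ≤ l * ∑ q ∈ U, (hits τ (g q) : ℝ) := by
    intro τ
    set k : ℝ := (Nat.card {y : M ≃ₐ[ℚ] M | IsConj τ y} : ℝ) with hk
    have hk1 : 1 ≤ k := by
      have : Nonempty {y : M ≃ₐ[ℚ] M | IsConj τ y} := ⟨⟨τ, IsConj.refl τ⟩⟩
      exact Nat.one_le_cast.mpr Nat.card_pos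
    have hnk : 0 ≤ n / k := div_nonneg hn0.le (by linarith)
    have h1 : ((T τ).card : ℝ) ≤ ((T τ).filter fun q => q ∉ bad).card + bad.card := by
      rw [← Finset.card_filter_add_card_filter_not (s := T τ) (fun q => q ∉ bad), Nat.cast_add]
      gcongr
      exact fun q hq => not_not.mp (Finset.mem_filter.mp hq).2
    have h2 : (n / k) * ((T τ).filter fun q => q ∉ bad).card ≤ ∑ q ∈ U, (hits τ (g q) : ℝ) := by
      rw [mul_comm, ← nsmul_eq_mul]
      refine (Finset.card_nsmul_le_sum _ _ _ fun q hq => ?_).trans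
        (Finset.sum_le_sum_of_subset_of_nonneg (fun q hq => ?_) fun q _ _ => Nat.cast_nonneg _)
      · obtain ⟨hqT, hqb⟩ := Finset.mem_filter.mp hq
        obtain ⟨-, A, hA, σ, hσ, hσg⟩ := hPg q (hTX τ q hqT).2.1 hqb
        refine le_of_eq ?_
        rw [div_eq_iff (by linarith), hk, hn, ← Nat.cast_mul, Nat.cast_inj]
        exact (hits_mul_card_class (hσg ▸ (hTX τ q hqT).2.2 A hA σ hσ)).symm
      · exact Finset.mem_filter.mpr ⟨Finset.mem_biUnion.mpr
          ⟨τ, Finset.mem_univ _, (Finset.mem_filter.mp hq).1⟩,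
          (hTX τ q (Finset.mem_filter.mp hq).1).2.1, (Finset.mem_filter.mp hq).2⟩
    have h3 := hTsum τ
    rw [← hk, ← hn] at h3
    have h4 := mul_le_mul_of_nonneg_left
      (h3.trans (mul_le_mul_of_nonneg_left h1 hl)) hnk
    have h5 : n / k * (k / n - δ / 2 / n) = 1 - δ / 2 / k := by field_simp
    have h6 : δ / 2 / k ≤ δ / 2 := div_le_self (half_pos hδ).le hk1
    have h7 : n / k * (l * (bad.card : ℝ)) ≤ δ / 2 := by
      refine le_trans ?_ hsm
      rw [mul_assoc n, mul_comm (bad.card : ℝ)]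
      exact mul_le_mul_of_nonneg_right (div_le_self hn0.le hk1) (by positivity)
    rw [h5] at h4
    have h8 := mul_le_mul_of_nonneg_left h2 hl
    linarith
  have hX : (X.card : ℝ) = c * D := by
    have hker : ∀ y : L ≃ₐ[K] L, (Finset.univ.filter fun d => res d = y).card =
        Nat.card res.ker := fun y => by
      obtain ⟨d₁, rfl⟩ := hres y
      rw [← Fintype.card_subtype, ← Nat.card_eq_fintype_card]
      exact Nat.card_congr
        { toFun := fun d => ⟨d₁⁻¹ * d.1, by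
            rw [MonoidHom.mem_ker, map_mul, map_inv, d.2, inv_mul_cancel]⟩
          invFun := fun d => ⟨d₁ * d.1, by rw [map_mul, MonoidHom.mem_ker.mp d.2, mul_one]⟩
          left_inv := fun d => Subtype.ext (mul_inv_cancel_left _ _)
          right_inv := fun d => Subtype.ext (inv_mul_cancel_left _ _) }
    have h1 : X.card = Nat.card C * Nat.card res.ker := by
      rw [Finset.card_image_of_injective _ hι, Finset.card_eq_sum_card_fiberwise (f := res)
        (t := C.toFinset) fun d hd => Set.mem_toFinset.mpr (Finset.mem_filter.mp hd).2,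
        Finset.sum_congr rfl fun y hy => by
          rw [Finset.filter_filter, Finset.filter_congr fun d _ =>
            (⟨fun h => h.2, fun h => ⟨h ▸ Set.mem_toFinset.mp hy, h⟩⟩ :
              res d ∈ C ∧ res d = y ↔ res d = y),
            hker y],
        Finset.sum_const, smul_eq_mul, Nat.card_coe_set_eq, Set.ncard_eq_toFinset_card']
    have h2 : Nat.card (M ≃ₐ[K] M) = Nat.card (L ≃ₐ[K] L) * Nat.card res.ker := by
      rw [Subgroup.card_eq_card_quotient_mul_card_subgroup res.ker,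
        Nat.card_congr (QuotientGroup.quotientKerEquivOfSurjective res hres).toEquiv]
    rw [hc, hD, h1, h2]
    push_cast
    field_simp
  have hsum : (X.card : ℝ) * (1 - δ) ≤ l * E.card := by
    rw [hE2, Finset.mul_sum, ← nsmul_eq_mul]
    exact Finset.card_nsmul_le_sum _ _ _ fun τ _ => hone τ
  have hc1 : c ≤ 1 := by
    rw [hc, div_le_one (Nat.cast_pos.mpr Nat.card_pos), Nat.cast_le]
    exact Nat.card_le_card_of_injective _ Subtype.val_injective
  rw [hX] at hsum
  refine le_of_mul_le_mul_left ?_ hD0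
  nlinarith [mul_le_mul_of_nonneg_left hE1 hl,
    mul_le_mul_of_nonneg_right (mul_le_mul_of_nonneg_right hc1 hδ.le) hD0.le]

end FA.NaturalChebotarev

end
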