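import Fermat.Agent.PrimeIdealTheorem.Continuation

/-!
# Weights with prescribed signs at the real places

For a symbol of degree `0` a coset differs from its ideal, and an ideal from the whole ring divided
by its norm, by entire functions, and the sum over all integers has at most a simple pole at `1`, by
the scalings by `2` and `3`.  The smooth partition of unity modulo units, restricted to given signs
at the real places, is such a symbol.
-/

set_option autoImplicit false
set_option linter.unusedSectionVars false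

noncomputable section

open NumberField NumberField.mixedEmbedding NumberField.InfinitePlace Module Filter Topology Ideal
open FA.Ext FA.PrimeIdeal
open scoped nonZeroDivisors Classical ContDiff

namespace FA.Hecke

variable {K : Type*} [Field K] [NumberField K]

theorem extends_coset_symbol {W : mixedSpace K → ℝ} (hW : IsSymbol 0 W) (J : Ideal (𝓞 K))
    (hJ : J ≠ ⊥) (n : ℕ) (a : 𝓞 K) :
    Extends K n fun s => (∑' y : J, symTerm W s (intEmb K (a + (y : 𝓞 K)))) -
      latSum J (symTerm W) s := by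
  refine ((extends_taylorRem J (intEmb K a) (m := n + 1) n.le_succ hW).add
    (Extends.sum (Finset.range n) (c := fun j _ => ((Nat.factorial (j + 1) : ℕ) : ℂ)⁻¹)
      (Φ := fun j => latSum J (symIter (intEmb K a) W (j + 1)))
      (fun j _ => differentiable_const _) fun j _ => ?_)).congr fun s hs => ?_
  · exact (Extends.sum (Finset.range (j + 1)) (c := fun i s => s ^ i)
      (fun i _ => differentiable_pow i) fun i _ =>
        extends_symDeriv J hJ n n (0 + j) (by omega) a _ (isSymbol_iterW _ hW j i)).congr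
      fun s hs => latSum_symIter_succ J _ j hW hs
  · rw [latSum_taylorRem J a n hW hs]
    ring

/-- **A coset and its ideal.** -/
theorem exists_coset_symbol {W : mixedSpace K → ℝ} (hW : IsSymbol 0 W) (J : Ideal (𝓞 K))
    (hJ : J ≠ ⊥) (a : 𝓞 K) :
    ∃ H : ℂ → ℂ, Differentiable ℂ H ∧ ∀ s : ℂ, 1 < s.re →
      (∑' y : J, symTerm W s (intEmb K (a + (y : 𝓞 K)))) - latSum J (symTerm W) s = H s :=
  exists_entire fun n => extends_coset_symbol hW J hJ n a

/-- The sum of a symbol over all integers. -/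
def symZ (W : mixedSpace K → ℝ) (s : ℂ) : ℂ := ∑' x : 𝓞 K, symTerm W s (intEmb K x)

/-- **An ideal and the whole ring.** -/
theorem exists_ideal_symbol {W : mixedSpace K → ℝ} (hW : IsSymbol 0 W) (J : (Ideal (𝓞 K))⁰) :
    ∃ H : ℂ → ℂ, Differentiable ℂ H ∧ ∀ s : ℂ, 1 < s.re →
      symZ W s - (absNorm J.1 : ℂ) * latSum J.1 (symTerm W) s = H s := by
  have hJ : J.1 ≠ ⊥ := nonZeroDivisors.coe_ne_zero J
  have : Finite (𝓞 K ⧸ J.1) := Ideal.finiteQuotientOfFreeOfNeBot J.1 hJ
  have : Fintype (𝓞 K ⧸ J.1) := Fintype.ofFinite _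
  choose H hH hH' using fun t : 𝓞 K ⧸ J.1 => exists_coset_symbol hW J.1 hJ (Quotient.out t)
  refine ⟨fun s => ∑ t, H t s, Differentiable.fun_sum fun t _ => hH t, fun s hs => ?_⟩
  have hmk : ∀ t : 𝓞 K ⧸ J.1, Ideal.Quotient.mk J.1 (Quotient.out t) = t := Quotient.out_eq
  let e : (𝓞 K ⧸ J.1) × J.1 → 𝓞 K := fun ty => Quotient.out ty.1 + (ty.2 : 𝓞 K)
  have he : Function.Bijective e := by
    constructor
    · rintro ⟨t, y⟩ ⟨t', y'⟩ h
      obtain rfl : t = t' := by
        have := congrArg (Ideal.Quotient.mk J.1) h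
        simpa [e, hmk, Ideal.Quotient.eq_zero_iff_mem.mpr y.2,
          Ideal.Quotient.eq_zero_iff_mem.mpr y'.2] using this
      simpa [e] using h
    · intro x
      refine ⟨⟨Ideal.Quotient.mk J.1 x, ⟨x - Quotient.out (Ideal.Quotient.mk J.1 x), ?_⟩⟩, ?_⟩
      · rw [← Ideal.Quotient.eq_zero_iff_mem, map_sub, hmk, sub_self]
      · simp [e]
  have hsum : Summable fun ty => symTerm W s (intEmb K (e ty)) :=
    (summable_symTerm hW hs).comp_injective he.1
  rw [symZ, ← (Equiv.ofBijective e he).tsum_eq]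
  simp only [Equiv.ofBijective_apply]
  rw [hsum.tsum_prod, tsum_fintype,
    show (absNorm J.1 : ℂ) * latSum J.1 (symTerm W) s =
        ∑ _t : 𝓞 K ⧸ J.1, latSum J.1 (symTerm W) s by
      rw [Finset.sum_const, Finset.card_univ, nsmul_eq_mul, Ideal.absNorm_apply,
        Submodule.cardQuot_apply, Nat.card_eq_fintype_card],
    ← Finset.sum_sub_distrib]
  exact Finset.sum_congr rfl fun t _ => hH' t s hs

theorem symTerm_natCast_mul {W : mixedSpace K → ℝ} (hW : IsSymbol 0 W) {m : ℕ} (hm : m ≠ 0)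
    (s : ℂ) (x : 𝓞 K) :
    symTerm W s (intEmb K ((m : 𝓞 K) * x)) =
      ((m ^ finrank ℚ K : ℕ) : ℂ) ^ (-s) * symTerm W s (intEmb K x) := by
  have hm' : (0 : ℝ) < m := Nat.cast_pos.mpr (Nat.pos_of_ne_zero hm)
  have hhom := hW.homog (intEmb K x) (m : ℝ) hm'
  rw [pow_zero, inv_one, one_mul] at hhom
  by_cases h0 : W (intEmb K x) = 0
  · simp [symTerm, intEmb_natCast_mul, hhom, h0]
  obtain ⟨hx, hc⟩ := hW.supp _ h0
  rw [symTerm, symTerm, intEmb_natCast_mul, hhom,
    logN_real_smul hm' (norm_ne_zero_of_mem_cone hc hx),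
    Complex.cpow_def_of_ne_zero (Nat.cast_ne_zero.mpr (pow_ne_zero _ hm)), ← Complex.natCast_log,
    Nat.cast_pow, Real.log_pow, mul_left_comm, ← Complex.exp_add]
  congr 2
  push_cast
  ring

theorem latSum_span_natCast {W : mixedSpace K → ℝ} (hW : IsSymbol 0 W) {m : ℕ} (hm : m ≠ 0)
    (s : ℂ) :
    latSum (Ideal.span {(m : 𝓞 K)}) (symTerm W) s =
      ((m ^ finrank ℚ K : ℕ) : ℂ) ^ (-s) * symZ W s := by
  let e : 𝓞 K → Ideal.span {(m : 𝓞 K)} := fun x =>
    ⟨(m : 𝓞 K) * x, Ideal.mem_span_singleton.mpr (dvd_mul_right _ _)⟩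
  have he : Function.Bijective e := ⟨fun x y h =>
    mul_left_cancel₀ (Nat.cast_ne_zero.mpr hm) (congrArg Subtype.val h), fun y => by
      obtain ⟨x, hx⟩ := Ideal.mem_span_singleton.mp y.2
      exact ⟨x, Subtype.ext hx.symm⟩⟩
  rw [latSum, ← (Equiv.ofBijective e he).tsum_eq, symZ, ← tsum_mul_left]
  exact tsum_congr fun x => symTerm_natCast_mul hW hm s x

theorem exists_twisted_symbol {W : mixedSpace K → ℝ} (hW : IsSymbol 0 W) (m : ℕ) (hm : m ≠ 0) :
    ∃ H : ℂ → ℂ, Differentiable ℂ H ∧ ∀ s : ℂ, 1 < s.re →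
      twistFactor (m ^ finrank ℚ K) s * symZ W s = H s := by
  obtain ⟨H, hH, h⟩ := exists_ideal_symbol hW ⟨Ideal.span {(m : 𝓞 K)},
    mem_nonZeroDivisors_iff_ne_zero.mpr fun h =>
      (Nat.cast_ne_zero.mpr hm : (m : 𝓞 K) ≠ 0) (Ideal.span_singleton_eq_bot.mp h)⟩
  refine ⟨H, hH, fun s hs => ?_⟩
  rw [← h s hs, latSum_span_natCast hW hm, PrimeIdeal.absNorm_span_natCast, twistFactor, ← mul_assoc, sub_mul,
    one_mul, sub_eq_add_neg (1 : ℂ) s,
    Complex.cpow_add _ _ (Nat.cast_ne_zero.mpr (pow_ne_zero _ hm)), Complex.cpow_one]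

/-- **`(s - 1) Z(s)` is entire.** -/
theorem exists_symZ {W : mixedSpace K → ℝ} (hW : IsSymbol 0 W) : ∃ G : ℂ → ℂ,
    Differentiable ℂ G ∧ ∀ s : ℂ, 1 < s.re → (s - 1) * symZ W s = G s := by
  set M₂ := 2 ^ finrank ℚ K
  set M₃ := 3 ^ finrank ℚ K
  obtain ⟨H₂, hH₂, h₂⟩ := exists_twisted_symbol hW 2 two_ne_zero
  obtain ⟨H₃, hH₃, h₃⟩ := exists_twisted_symbol hW 3 three_ne_zero
  set q₂ := dslope (twistFactor M₂) 1
  set q₃ := dslope (twistFactor M₃) 1
  have hq₂ : Differentiable ℂ q₂ :=
    differentiable_dslope (differentiable_twistFactor (pow_ne_zero _ two_ne_zero)) 1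
  have hq₃ : Differentiable ℂ q₃ :=
    differentiable_dslope (differentiable_twistFactor (pow_ne_zero _ three_ne_zero)) 1
  have hq : ∀ (M : ℕ) (s : ℂ), (s - 1) * dslope (twistFactor M) 1 s = twistFactor M s := fun M s =>
    by simpa [twistFactor_one] using sub_smul_dslope (twistFactor M) 1 s
  have hval₂ : ∀ s : ℂ, 1 < s.re → (s - 1) * symZ W s * q₂ s = H₂ s := fun s hs => by
    rw [← h₂ s hs, ← hq M₂ s]; ring
  have hval₃ : ∀ s : ℂ, 1 < s.re → (s - 1) * symZ W s * q₃ s = H₃ s := fun s hs => by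
    rw [← h₃ s hs, ← hq M₃ s]; ring
  have hcross : (fun s => H₂ s * q₃ s) = fun s => H₃ s * q₂ s :=
    eq_of_eq_halfPlane (hH₂.mul hq₃) (hH₃.mul hq₂) fun s hs => by
      rw [← hval₂ s hs, ← hval₃ s hs]; ring
  refine ⟨fun s => if q₂ s ≠ 0 then H₂ s / q₂ s else H₃ s / q₃ s, fun z => ?_, fun s hs => ?_⟩
  · rcases dslope_twistFactor_two_three (K := K) z with h | h
    · refine ((hH₂ z).div (hq₂ z) h).congr_of_eventuallyEq ?_
      filter_upwards [(hq₂.continuous.isOpen_preimage _ isOpen_ne).mem_nhds h] with s hs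
      exact if_pos hs
    · refine ((hH₃ z).div (hq₃ z) h).congr_of_eventuallyEq ?_
      filter_upwards [(hq₃.continuous.isOpen_preimage _ isOpen_ne).mem_nhds h] with s hs
      split_ifs with h'
      · exact (div_eq_div_iff h' hs).mpr (congrFun hcross s)
      · rfl
  · simp only
    split_ifs with h
    · rw [← hval₂ s hs, mul_div_cancel_right₀ _ h]
    · rw [← hval₃ s hs, mul_div_cancel_right₀ _
        ((dslope_twistFactor_two_three (K := K) s).resolve_left h)]

/-- The signs at the real places. -/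
def sgn (x : mixedSpace K) (w : {w : InfinitePlace K // IsReal w}) : Bool := decide (0 < x.1 w)

/-- The weight on the vectors with signs `σ`. -/
def signW (σ : {w : InfinitePlace K // IsReal w} → Bool) (x : mixedSpace K) : ℝ :=
  if sgn x = σ then weightS x else 0

theorem signW_ne_zero {σ : {w : InfinitePlace K // IsReal w} → Bool} {x : mixedSpace K}
    (h : signW σ x ≠ 0) : weightS x ≠ 0 := by
  rw [signW] at h
  split_ifs at h with h'
  · exact h
  · exact absurd rfl h

theorem isSymbol_signW (σ : {w : InfinitePlace K // IsReal w} → Bool) :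
    IsSymbol 0 (signW σ) where
  smooth x hx := by
    by_cases hc : x ∈ cone K
    · have hev : ∀ᶠ y in 𝓝 x, sgn y = sgn x := by
        have h : ∀ w : {w : InfinitePlace K // IsReal w}, ∀ᶠ y in 𝓝 x, sgn y w = sgn x w := by
          intro w
          have hne : x.1 w ≠ 0 := fun h0 => by
            have h1 := hc w.1
            rw [normAtPlace_apply_of_isReal w.2, Subtype.coe_eta, h0, norm_zero] at h1
            exact absurd h1 (not_le.mpr (mul_pos suppConst_pos (norm_pos_iff.mpr hx)))
          have hcont : Tendsto (fun y : mixedSpace K => y.1 w) (𝓝 x) (𝓝 (x.1 w)) :=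
            ((continuous_apply w).comp continuous_fst).tendsto x
          rcases lt_or_gt_of_ne hne with hlt | hgt
          · filter_upwards [hcont.eventually (gt_mem_nhds hlt)] with y hy
            simp [sgn, hy.not_gt, hlt.not_gt]
          · filter_upwards [hcont.eventually (lt_mem_nhds hgt)] with y hy
            simp [sgn, hy, hgt]
        filter_upwards [eventually_all.mpr h] with y hy
        exact funext hy
      by_cases hσ : sgn x = σ
      · refine ((isSymbol_weightS).smooth x hx).congr_of_eventuallyEq ?_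
        filter_upwards [hev] with y hy
        rw [signW, if_pos (hy.trans hσ)]
      · refine (contDiffAt_const (c := (0 : ℝ))).congr_of_eventuallyEq ?_
        filter_upwards [hev] with y hy
        rw [signW, if_neg fun h => hσ (hy.symm.trans h)]
    · refine (contDiffAt_const (c := (0 : ℝ))).congr_of_eventuallyEq ?_
      filter_upwards [(isSymbol_weightS (K := K)).eventually_eq_zero hc] with y hy
      simp [signW, hy]
  homog x r hr := by
    have hs : sgn (r • x) = sgn x := funext fun w => by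
      simp [sgn, mul_pos_iff_of_pos_left hr]
    rw [signW, signW, hs, isSymbol_weightS.homog x r hr]
    split_ifs <;> ring
  supp x hx := isSymbol_weightS.supp x (signW_ne_zero hx)

theorem sum_signW (x : mixedSpace K) (g : ({w : InfinitePlace K // IsReal w} → Bool) → ℂ) :
    ∑ σ, g σ * (signW σ x : ℂ) = g (sgn x) * (weightS x : ℂ) := by
  rw [Finset.sum_eq_single (sgn x) (fun σ _ hσ => by simp [signW, hσ.symm]) (by simp), signW,
    if_pos rfl]

theorem sgn_intEmb (x : 𝓞 K) (w : {w : InfinitePlace K // IsReal w}) :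
    sgn (intEmb K x) w = decide (0 < embedding_of_isReal w.2 (x : K)) := by
  rw [sgn, intEmb, mixedEmbedding_apply_isReal]

theorem exists_isReal_embedding (φ : K →+* ℝ) :
    ∃ w : {w : InfinitePlace K // IsReal w}, embedding_of_isReal w.2 = φ := by
  set ψ : K →+* ℂ := Complex.ofRealHom.comp φ
  have hψ : ComplexEmbedding.IsReal ψ :=
    ComplexEmbedding.isReal_iff.mpr (RingHom.ext fun x => Complex.conj_ofReal (φ x))
  refine ⟨⟨InfinitePlace.mk ψ, isReal_iff.mpr (by rwa [embedding_mk_eq_of_isReal hψ])⟩,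
    RingHom.ext fun x => Complex.ofReal_injective ?_⟩
  rw [embedding_of_isReal_apply, embedding_mk_eq_of_isReal hψ]
  rfl

/-- Equal signs at all real places. -/
theorem mul_pos_of_sgn_eq {x y : 𝓞 K} (hx : x ≠ 0) (hy : y ≠ 0)
    (h : sgn (intEmb K x) = sgn (intEmb K y)) (φ : K →+* ℝ) : 0 < φ x * φ y := by
  obtain ⟨w, rfl⟩ := exists_isReal_embedding φ
  have h' := congrFun h w
  simp only [sgn_intEmb, decide_eq_decide] at h'
  have h1 : embedding_of_isReal w.2 (x : K) ≠ 0 :=
    (map_ne_zero _).mpr (RingOfIntegers.coe_ne_zero_iff.mpr hx)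
  have h2 : embedding_of_isReal w.2 (y : K) ≠ 0 :=
    (map_ne_zero _).mpr (RingOfIntegers.coe_ne_zero_iff.mpr hy)
  rcases lt_or_gt_of_ne h1 with h3 | h3
  · exact mul_pos_of_neg_of_neg h3 (lt_of_le_of_ne (not_lt.mp fun h4 => h3.not_gt (h'.mpr h4)) h2)
  · exact mul_pos h3 (h'.mp h3)

end FA.Hecke

end
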